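/-
GATE-Z (S15) / [MOD-beta] GZ-MODB-WEQ-DIRECT (helper68), file 3: the PAIR SUMS.

With `P = ∑ φ(qⁿu)`, `Q = ∑ ψ(qⁿu)`, `W = ∑ φ(qⁿu)²` (`PP`, `QQ`, `WW`):

* `PP_sq`    : `P² = W + 2·T₂ + 4·S₁·P`,
* `main_rel` : `Q² + PQ - PW = -T_C - 4·S_A·P - 2·S₁·W`,

where `S₁ = ∑_{d ≥ 1} F₁(q^d)`, `T₂ = ∑ d F₂(q^d)`, `S_A = ∑ GA(q^d)`, `T_C = ∑ d GC(q^d)` are
(one-variable) Lambert-type series in `q` (`kS1`, `kT2`, `kSA`, `kTC`).
-/
import Mathlib
import Fermat.Agent.GZ.Tate.WeqD.Sums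

set_option autoImplicit false
set_option linter.unusedSectionVars false

noncomputable section

namespace Fermat.Agent.GZ.Tate.WeqD

open Filter Topology Fermat.Agent.GZ.Tate

variable {K : Type*} [NormedField K] [IsUltrametricDist K] [CompleteSpace K]

/-- `P = ∑ₙ φ(qⁿu)`. -/
def PP (q u : K) : K := ∑' n : ℤ, xTerm (wq q u n)

/-- `Q = ∑ₙ ψ(qⁿu)`. -/
def QQ (q u : K) : K := ∑' n : ℤ, yTerm (wq q u n)

/-- `W = ∑ₙ φ(qⁿu)²`. -/
def WW (q u : K) : K := ∑' n : ℤ, xTerm (wq q u n) ^ 2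

/-- `S₁ = ∑_{d ≥ 1} F₁(q^d)`. -/
def kS1 (q : K) : K := ∑' d : ℕ, F1 (q ^ (d + 1))

/-- `T₂ = ∑_{d ≥ 1} d F₂(q^d)`. -/
def kT2 (q : K) : K := ∑' d : ℕ, ((d : K) + 1) * F2 (q ^ (d + 1))

/-- `S_A = ∑_{d ≥ 1} GA(q^d)`. -/
def kSA (q : K) : K := ∑' d : ℕ, GA (q ^ (d + 1))

/-- `T_C = ∑_{d ≥ 1} d GC(q^d)`. -/
def kTC (q : K) : K := ∑' d : ℕ, ((d : K) + 1) * GC (q ^ (d + 1))

section

variable {q u : K} (hq0 : q ≠ 0) (hq1 : ‖q‖ < 1) (hu : IsAdm q u)

include hq0 hq1 hu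

theorem summable_xTerm_sq : Summable (fun n : ℤ => xTerm (wq q u n) ^ 2) := by
  have h := summable_xTerm hq0 hq1 hu
  have := summable_mul_self h h
  refine this.congr fun n => ?_
  rw [sq]

theorem hasSum_PP : HasSum (fun n : ℤ => xTerm (wq q u n)) (PP q u) :=
  (summable_xTerm hq0 hq1 hu).hasSum

theorem hasSum_QQ : HasSum (fun n : ℤ => yTerm (wq q u n)) (QQ q u) :=
  (summable_yTerm hq0 hq1 hu).hasSum

theorem hasSum_WW : HasSum (fun n : ℤ => xTerm (wq q u n) ^ 2) (WW q u) :=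
  (summable_xTerm_sq hq0 hq1 hu).hasSum

theorem shift_ne_one (n : ℤ) (d : ℕ) : q ^ (d + 1) * wq q u n ≠ 1 := by
  rw [← wq_add_nat hq0]
  exact wq_ne_one hu _

/-- the `d`-th off-diagonal sum of `P·P`. -/
theorem hasSum_phiphi (d : ℕ) :
    HasSum (fun n : ℤ => xTerm (wq q u n) * xTerm (wq q u (n + ((d : ℤ) + 1))) +
        xTerm (wq q u (n + ((d : ℤ) + 1))) * xTerm (wq q u n))
      (2 * (((d : K) + 1) * F2 (q ^ (d + 1))) + 4 * F1 (q ^ (d + 1)) * PP q u) := by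
  have hT := hasSum_tele hq0 hq1 hu ((d : ℤ) + 1)
  have hP := hasSum_PP hq0 hq1 hu
  have hP' := hasSum_shift hP ((d : ℤ) + 1)
  have h := (hT.mul_left (-(2 * F2 (q ^ (d + 1))))).add
    ((hP.add hP').mul_left (2 * F1 (q ^ (d + 1))))
  have hfun : (fun n : ℤ => xTerm (wq q u n) * xTerm (wq q u (n + ((d : ℤ) + 1))) +
        xTerm (wq q u (n + ((d : ℤ) + 1))) * xTerm (wq q u n)) =
      fun n : ℤ => -(2 * F2 (q ^ (d + 1))) * (fT (wq q u n) - fT (wq q u (n + ((d : ℤ) + 1)))) +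
        2 * F1 (q ^ (d + 1)) * (xTerm (wq q u n) + xTerm (wq q u (n + ((d : ℤ) + 1)))) := by
    funext n
    rw [wq_add_nat hq0]
    exact phiphi_sym (wq_ne_one hu n) (shift_ne_one hq0 hq1 hu n d) (pow_succ_ne_one hq1 d)
  have hv : 2 * (((d : K) + 1) * F2 (q ^ (d + 1))) + 4 * F1 (q ^ (d + 1)) * PP q u =
      -(2 * F2 (q ^ (d + 1))) * -((((d : ℤ) + 1 : ℤ)) : K) +
        2 * F1 (q ^ (d + 1)) * (PP q u + PP q u) := by
    push_cast
    ring
  rw [hfun, hv]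
  exact h

/-- the `d`-th off-diagonal sum of `Q² + PQ - PW`. -/
theorem hasSum_esym (d : ℕ) :
    HasSum (fun n : ℤ =>
        (yTerm (wq q u n) * yTerm (wq q u (n + ((d : ℤ) + 1))) +
          yTerm (wq q u (n + ((d : ℤ) + 1))) * yTerm (wq q u n))
        + (xTerm (wq q u n) * yTerm (wq q u (n + ((d : ℤ) + 1))) +
          xTerm (wq q u (n + ((d : ℤ) + 1))) * yTerm (wq q u n))
        - (xTerm (wq q u n) * xTerm (wq q u (n + ((d : ℤ) + 1))) ^ 2 +
          xTerm (wq q u (n + ((d : ℤ) + 1))) * xTerm (wq q u n) ^ 2))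
      (-(((d : K) + 1) * GC (q ^ (d + 1))) - 4 * GA (q ^ (d + 1)) * PP q u
        - 2 * F1 (q ^ (d + 1)) * WW q u) := by
  have hT := hasSum_tele hq0 hq1 hu ((d : ℤ) + 1)
  have hP := hasSum_PP hq0 hq1 hu
  have hP' := hasSum_shift hP ((d : ℤ) + 1)
  have hQ := hasSum_QQ hq0 hq1 hu
  have hQ' := hasSum_shift hQ ((d : ℤ) + 1)
  have hW := hasSum_WW hq0 hq1 hu
  have hW' := hasSum_shift hW ((d : ℤ) + 1)
  have h := ((((hT.mul_left (GC (q ^ (d + 1)))).sub (hP.mul_left (GAl (q ^ (d + 1))))).sub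
    (hP'.mul_left (GAr (q ^ (d + 1))))).add ((hQ.sub hQ').mul_left (2 * F2 (q ^ (d + 1))))).sub
    ((hW.add hW').mul_left (F1 (q ^ (d + 1))))
  have hfun : (fun n : ℤ =>
        (yTerm (wq q u n) * yTerm (wq q u (n + ((d : ℤ) + 1))) +
          yTerm (wq q u (n + ((d : ℤ) + 1))) * yTerm (wq q u n))
        + (xTerm (wq q u n) * yTerm (wq q u (n + ((d : ℤ) + 1))) +
          xTerm (wq q u (n + ((d : ℤ) + 1))) * yTerm (wq q u n))
        - (xTerm (wq q u n) * xTerm (wq q u (n + ((d : ℤ) + 1))) ^ 2 +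
          xTerm (wq q u (n + ((d : ℤ) + 1))) * xTerm (wq q u n) ^ 2)) =
      fun n : ℤ => GC (q ^ (d + 1)) * (fT (wq q u n) - fT (wq q u (n + ((d : ℤ) + 1))))
        - GAl (q ^ (d + 1)) * xTerm (wq q u n)
        - GAr (q ^ (d + 1)) * xTerm (wq q u (n + ((d : ℤ) + 1)))
        + 2 * F2 (q ^ (d + 1)) * (yTerm (wq q u n) - yTerm (wq q u (n + ((d : ℤ) + 1))))
        - F1 (q ^ (d + 1)) * (xTerm (wq q u n) ^ 2 + xTerm (wq q u (n + ((d : ℤ) + 1))) ^ 2) := by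
    funext n
    rw [wq_add_nat hq0]
    exact esym (wq_ne_one hu n) (shift_ne_one hq0 hq1 hu n d) (pow_succ_ne_one hq1 d)
  have hv : -(((d : K) + 1) * GC (q ^ (d + 1))) - 4 * GA (q ^ (d + 1)) * PP q u
        - 2 * F1 (q ^ (d + 1)) * WW q u =
      GC (q ^ (d + 1)) * -((((d : ℤ) + 1 : ℤ)) : K) - GAl (q ^ (d + 1)) * PP q u
        - GAr (q ^ (d + 1)) * PP q u + 2 * F2 (q ^ (d + 1)) * (QQ q u - QQ q u)
        - F1 (q ^ (d + 1)) * (WW q u + WW q u) := by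
    have h4 := GAl_add_GAr (pow_succ_ne_one hq1 d)
    push_cast
    linear_combination (PP q u) * h4
  rw [hfun, hv]
  exact h

omit hq0 hu in
theorem summable_kS1 : Summable (fun d : ℕ => F1 (q ^ (d + 1))) :=
  summable_kernel_one hq1 continuousAt_F1 F1_zero

omit hq0 hu in
theorem summable_kT2 : Summable (fun d : ℕ => ((d : K) + 1) * F2 (q ^ (d + 1))) :=
  summable_kernel hq1 continuousAt_F2 F2_zero _ norm_natCast_succ_le

omit hq0 hu in
theorem summable_kSA : Summable (fun d : ℕ => GA (q ^ (d + 1))) :=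
  summable_kernel_one hq1 continuousAt_GA GA_zero

omit hq0 hu in
theorem summable_kTC : Summable (fun d : ℕ => ((d : K) + 1) * GC (q ^ (d + 1))) :=
  summable_kernel hq1 continuousAt_GC GC_zero _ norm_natCast_succ_le

/-- **`P² = W + 2 T₂ + 4 S₁ P`.** -/
theorem PP_sq : PP q u ^ 2 = WW q u + 2 * kT2 q + 4 * kS1 q * PP q u := by
  have hS := summable_xTerm hq0 hq1 hu
  have h := tsum_mul_tsum_offdiag hS hS
  have hd : ∀ d : ℕ, ∑' n : ℤ, (xTerm (wq q u n) * xTerm (wq q u (n + ((d : ℤ) + 1))) +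
      xTerm (wq q u (n + ((d : ℤ) + 1))) * xTerm (wq q u n)) =
      2 * (((d : K) + 1) * F2 (q ^ (d + 1))) + 4 * F1 (q ^ (d + 1)) * PP q u :=
    fun d => (hasSum_phiphi hq0 hq1 hu d).tsum_eq
  simp_rw [hd] at h
  have hdiag : ∑' n : ℤ, xTerm (wq q u n) * xTerm (wq q u n) = WW q u := by
    unfold WW
    refine tsum_congr fun n => ?_
    rw [sq]
  have h1 : HasSum (fun d : ℕ => 2 * (((d : K) + 1) * F2 (q ^ (d + 1)))) (2 * kT2 q) :=
    (summable_kT2 hq1).hasSum.mul_left 2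
  have h2 : HasSum (fun d : ℕ => 4 * F1 (q ^ (d + 1)) * PP q u) (4 * kS1 q * PP q u) :=
    ((summable_kS1 hq1).hasSum.mul_left 4).mul_right (PP q u)
  have hsplit := (h1.add h2).tsum_eq
  rw [hdiag, hsplit] at h
  rw [sq]
  unfold PP at h ⊢
  rw [h]
  ring

/-- **`Q² + PQ - PW = -T_C - 4 S_A P - 2 S₁ W`.** -/
theorem main_rel :
    QQ q u ^ 2 + PP q u * QQ q u - PP q u * WW q u =
      -(kTC q) - 4 * kSA q * PP q u - 2 * kS1 q * WW q u := by
  have hX := summable_xTerm hq0 hq1 hu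
  have hY := summable_yTerm hq0 hq1 hu
  have hW := summable_xTerm_sq hq0 hq1 hu
  have hYY := tsum_mul_tsum_offdiag hY hY
  have hXY := tsum_mul_tsum_offdiag hX hY
  have hXW := tsum_mul_tsum_offdiag hX hW
  -- the diagonal
  have hdiag : ∑' n : ℤ, yTerm (wq q u n) * yTerm (wq q u n)
      + ∑' n : ℤ, xTerm (wq q u n) * yTerm (wq q u n)
      - ∑' n : ℤ, xTerm (wq q u n) * xTerm (wq q u n) ^ 2 = 0 := by
    have hs := (((summable_mul_self hY hY).hasSum.add (summable_mul_self hX hY).hasSum).sub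
      (summable_mul_self hX hW).hasSum)
    have hz : HasSum (fun n : ℤ => yTerm (wq q u n) * yTerm (wq q u n)
        + xTerm (wq q u n) * yTerm (wq q u n)
        - xTerm (wq q u n) * xTerm (wq q u n) ^ 2) 0 := by
      have hfun : (fun n : ℤ => yTerm (wq q u n) * yTerm (wq q u n)
          + xTerm (wq q u n) * yTerm (wq q u n)
          - xTerm (wq q u n) * xTerm (wq q u n) ^ 2) = fun _ => (0 : K) := by
        funext n
        have := nodal (wq_ne_one hu n)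
        linear_combination this
      rw [hfun]
      exact hasSum_zero
    exact hs.unique hz
  -- the off-diagonal part
  have hoff : ∑' d : ℕ, ∑' n : ℤ, (yTerm (wq q u n) * yTerm (wq q u (n + ((d : ℤ) + 1))) +
          yTerm (wq q u (n + ((d : ℤ) + 1))) * yTerm (wq q u n))
      + ∑' d : ℕ, ∑' n : ℤ, (xTerm (wq q u n) * yTerm (wq q u (n + ((d : ℤ) + 1))) +
          xTerm (wq q u (n + ((d : ℤ) + 1))) * yTerm (wq q u n))
      - ∑' d : ℕ, ∑' n : ℤ, (xTerm (wq q u n) * xTerm (wq q u (n + ((d : ℤ) + 1))) ^ 2 +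
          xTerm (wq q u (n + ((d : ℤ) + 1))) * xTerm (wq q u n) ^ 2)
      = -(kTC q) - 4 * kSA q * PP q u - 2 * kS1 q * WW q u := by
    have hs := (((summable_offdiag hY hY).hasSum.add (summable_offdiag hX hY).hasSum).sub
      (summable_offdiag hX hW).hasSum)
    have hval : HasSum (fun d : ℕ => -(((d : K) + 1) * GC (q ^ (d + 1)))
        - 4 * GA (q ^ (d + 1)) * PP q u - 2 * F1 (q ^ (d + 1)) * WW q u)
        (-(kTC q) - 4 * kSA q * PP q u - 2 * kS1 q * WW q u) :=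
      (((summable_kTC hq1).hasSum.neg).sub
        (((summable_kSA hq1).hasSum.mul_left 4).mul_right (PP q u))).sub
        (((summable_kS1 hq1).hasSum.mul_left 2).mul_right (WW q u))
    refine hs.unique ?_
    have hfun : (fun d : ℕ => -(((d : K) + 1) * GC (q ^ (d + 1)))
        - 4 * GA (q ^ (d + 1)) * PP q u - 2 * F1 (q ^ (d + 1)) * WW q u) =
        fun d : ℕ => ∑' n : ℤ, (yTerm (wq q u n) * yTerm (wq q u (n + ((d : ℤ) + 1))) +
          yTerm (wq q u (n + ((d : ℤ) + 1))) * yTerm (wq q u n))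
        + ∑' n : ℤ, (xTerm (wq q u n) * yTerm (wq q u (n + ((d : ℤ) + 1))) +
          xTerm (wq q u (n + ((d : ℤ) + 1))) * yTerm (wq q u n))
        - ∑' n : ℤ, (xTerm (wq q u n) * xTerm (wq q u (n + ((d : ℤ) + 1))) ^ 2 +
          xTerm (wq q u (n + ((d : ℤ) + 1))) * xTerm (wq q u n) ^ 2) := by
      funext d
      have hin := (((summable_offdiag_inner hY hY d).hasSum.add
        (summable_offdiag_inner hX hY d).hasSum).sub (summable_offdiag_inner hX hW d).hasSum)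
      exact (hasSum_esym hq0 hq1 hu d).unique hin
    rw [hfun] at hval
    exact hval
  have e1 : QQ q u ^ 2 = (∑' n : ℤ, yTerm (wq q u n)) * ∑' n : ℤ, yTerm (wq q u n) := by
    rw [sq, QQ]
  have e2 : PP q u * QQ q u = (∑' n : ℤ, xTerm (wq q u n)) * ∑' n : ℤ, yTerm (wq q u n) := by
    rw [PP, QQ]
  have e3 : PP q u * WW q u = (∑' n : ℤ, xTerm (wq q u n)) * ∑' n : ℤ, xTerm (wq q u n) ^ 2 := by
    rw [PP, WW]
  rw [e1, e2, e3, hYY, hXY, hXW, ← hoff]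
  linear_combination hdiag

end

end Fermat.Agent.GZ.Tate.WeqD
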