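/-
GATE-Z (S15) / [MOD-beta] GZ-MODB-WEQ-DIRECT (helper68), file 4: the LAMBERT SERIES.

* `pw b = ∑ m^b X^m ∈ ℤ⟦X⟧`, `(1-X)^{b+1} · pw b = X · A_b(X)` (`b = 1..4`), hence
  `ev t (pw b) = F_b(t)` for `‖t‖ < 1` (`ev_pw1 … ev_pw4`);
* the TWO-WEIGHT Lambert regrouping (`tsum_lambert2`, after helper3's `T0.tsum_lambert`):
  `∑_{d ≥ 1} g(d) · ev (q^d) (∑ h(m) X^m) = ev q (∑_n (∑_{de = n} g(d) h(e)) X^n)`;
* `lam2 1 (·^b) = sigmaSeries b`, `lam2 id (·^{b+1}) = θ (sigmaSeries b)`;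
* in `K`: `kS1 q = s₁(q)`, `kT2 q = ev q (θ σ₁)`, `6·kSA q = 5 s₃ + s₁`, `6·kTC q = 5 ev q (θ σ₃) + kT2 q`;
* Ramanujan's identities in the form used (`R1f`, `R2f`, from `S16/RAM/Series.lean`, helper29).
-/
import Mathlib
import Fermat.Agent.GZ.Tate.T0.Bridge
import Fermat.Agent.S16.RAM.Series
import Fermat.Agent.GZ.Tate.WeqD.Pair

set_option autoImplicit false
set_option linter.unusedSectionVars false

noncomputable section

namespace Fermat.Agent.GZ.Tate.WeqD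

open PowerSeries Fermat.Agent.GZ.Tate Fermat.Agent.GZ.Tate.T0 Fermat.Agent.S16.L1h67
  Fermat.Agent.S16.RAM

/-! ### the power-sum kernels -/

local notation "XX" => (PowerSeries.X : PowerSeries ℤ)


/-- `pw b = ∑ m^b XX^m`. -/
def pw (b : ℕ) : PowerSeries ℤ := PowerSeries.mk fun m => (m : ℤ) ^ b

theorem pw1_mul : (1 - XX) ^ 2 * pw 1 = XX := by
  have h : (1 - XX) ^ 2 * pw 1 = pw 1 - 2 • (XX ^ 1 * pw 1) + XX ^ 2 * pw 1 := by ring
  rw [h]
  ext n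
  simp only [map_add, map_sub, map_nsmul, coeff_X_pow_mul', coeff_X, pw, coeff_mk]
  rcases n with _ | _ | n
  · simp
  · norm_num
  · have e1 : n + 1 + 1 - 1 = n + 1 := by omega
    have e2 : n + 1 + 1 - 2 = n := by omega
    have c1 : (1 : ℕ) ≤ n + 1 + 1 := by omega
    have c2 : (2 : ℕ) ≤ n + 1 + 1 := by omega
    have d1 : ¬ (n + 1 + 1 = 1) := by omega
    simp only [e1, e2, c1, c2, d1, if_true, if_false]
    push_cast
    ring

theorem pw2_mul : (1 - XX) ^ 3 * pw 2 = XX * (1 + XX) := by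
  have h : (1 - XX) ^ 3 * pw 2 = pw 2 - 3 • (XX ^ 1 * pw 2) + 3 • (XX ^ 2 * pw 2)
      - XX ^ 3 * pw 2 := by ring
  have h' : XX * (1 + XX) = XX ^ 1 + XX ^ 2 := by ring
  rw [h, h']
  ext n
  simp only [map_add, map_sub, map_nsmul, coeff_X_pow_mul', coeff_X_pow, pw, coeff_mk]
  rcases n with _ | _ | _ | n
  · simp
  · norm_num
  · norm_num
  · have e1 : n + 1 + 1 + 1 - 1 = n + 2 := by omega
    have e2 : n + 1 + 1 + 1 - 2 = n + 1 := by omega
    have e3 : n + 1 + 1 + 1 - 3 = n := by omega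
    have c1 : (1 : ℕ) ≤ n + 1 + 1 + 1 := by omega
    have c2 : (2 : ℕ) ≤ n + 1 + 1 + 1 := by omega
    have c3 : (3 : ℕ) ≤ n + 1 + 1 + 1 := by omega
    have d1 : ¬ (n + 1 + 1 + 1 = 1) := by omega
    have d2 : ¬ (n + 1 + 1 + 1 = 2) := by omega
    simp only [e1, e2, e3, c1, c2, c3, d1, d2, if_true, if_false]
    push_cast
    ring

theorem pw3_mul : (1 - XX) ^ 4 * pw 3 = XX * (1 + 4 * XX + XX ^ 2) := by
  have h : (1 - XX) ^ 4 * pw 3 = pw 3 - 4 • (XX ^ 1 * pw 3) + 6 • (XX ^ 2 * pw 3)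
      - 4 • (XX ^ 3 * pw 3) + XX ^ 4 * pw 3 := by ring
  have h' : XX * (1 + 4 * XX + XX ^ 2) = XX ^ 1 + 4 • XX ^ 2 + XX ^ 3 := by ring
  rw [h, h']
  ext n
  simp only [map_add, map_sub, map_nsmul, coeff_X_pow_mul', coeff_X_pow, pw, coeff_mk]
  rcases n with _ | _ | _ | _ | n
  · simp
  · norm_num
  · norm_num
  · norm_num
  · have e1 : n + 1 + 1 + 1 + 1 - 1 = n + 3 := by omega
    have e2 : n + 1 + 1 + 1 + 1 - 2 = n + 2 := by omega
    have e3 : n + 1 + 1 + 1 + 1 - 3 = n + 1 := by omega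
    have e4 : n + 1 + 1 + 1 + 1 - 4 = n := by omega
    have c1 : (1 : ℕ) ≤ n + 1 + 1 + 1 + 1 := by omega
    have c2 : (2 : ℕ) ≤ n + 1 + 1 + 1 + 1 := by omega
    have c3 : (3 : ℕ) ≤ n + 1 + 1 + 1 + 1 := by omega
    have c4 : (4 : ℕ) ≤ n + 1 + 1 + 1 + 1 := by omega
    have d1 : ¬ (n + 1 + 1 + 1 + 1 = 1) := by omega
    have d2 : ¬ (n + 1 + 1 + 1 + 1 = 2) := by omega
    have d3 : ¬ (n + 1 + 1 + 1 + 1 = 3) := by omega
    simp only [e1, e2, e3, e4, c1, c2, c3, c4, d1, d2, d3, if_true, if_false]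
    push_cast
    ring

theorem pw4_mul : (1 - XX) ^ 5 * pw 4 = XX * (1 + 11 * XX + 11 * XX ^ 2 + XX ^ 3) := by
  have h : (1 - XX) ^ 5 * pw 4 = pw 4 - 5 • (XX ^ 1 * pw 4) + 10 • (XX ^ 2 * pw 4)
      - 10 • (XX ^ 3 * pw 4) + 5 • (XX ^ 4 * pw 4) - XX ^ 5 * pw 4 := by ring
  have h' : XX * (1 + 11 * XX + 11 * XX ^ 2 + XX ^ 3) =
      XX ^ 1 + 11 • XX ^ 2 + 11 • XX ^ 3 + XX ^ 4 := by ring
  rw [h, h']
  ext n
  simp only [map_add, map_sub, map_nsmul, coeff_X_pow_mul', coeff_X_pow, pw, coeff_mk]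
  rcases n with _ | _ | _ | _ | _ | n
  · simp
  · simp
  · norm_num
  · norm_num
  · norm_num
  · have e1 : n + 1 + 1 + 1 + 1 + 1 - 1 = n + 4 := by omega
    have e2 : n + 1 + 1 + 1 + 1 + 1 - 2 = n + 3 := by omega
    have e3 : n + 1 + 1 + 1 + 1 + 1 - 3 = n + 2 := by omega
    have e4 : n + 1 + 1 + 1 + 1 + 1 - 4 = n + 1 := by omega
    have e5 : n + 1 + 1 + 1 + 1 + 1 - 5 = n := by omega
    simp only [e1, e2, e3, e4, e5]
    have c1 : (1 : ℕ) ≤ n + 1 + 1 + 1 + 1 + 1 := by omega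
    have c2 : (2 : ℕ) ≤ n + 1 + 1 + 1 + 1 + 1 := by omega
    have c3 : (3 : ℕ) ≤ n + 1 + 1 + 1 + 1 + 1 := by omega
    have c4 : (4 : ℕ) ≤ n + 1 + 1 + 1 + 1 + 1 := by omega
    have c5 : (5 : ℕ) ≤ n + 1 + 1 + 1 + 1 + 1 := by omega
    have d1 : ¬ (n + 1 + 1 + 1 + 1 + 1 = 1) := by omega
    have d2 : ¬ (n + 1 + 1 + 1 + 1 + 1 = 2) := by omega
    have d3 : ¬ (n + 1 + 1 + 1 + 1 + 1 = 3) := by omega
    have d4 : ¬ (n + 1 + 1 + 1 + 1 + 1 = 4) := by omega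
    simp only [c1, c2, c3, c4, c5, d1, d2, d3, d4, if_true, if_false]
    push_cast
    ring

variable {K : Type*} [NormedField K] [IsUltrametricDist K] [CompleteSpace K]

theorem one_sub_ne_zero_of_norm_lt {t : K} (ht : ‖t‖ < 1) : (1 : K) - t ≠ 0 := by
  intro h
  have : t = 1 := (sub_eq_zero.1 h).symm
  rw [this, norm_one] at ht
  exact lt_irrefl _ ht

theorem ev_pw1 {t : K} (ht : ‖t‖ < 1) : ev t (pw 1) = F1 t := by
  have h := congrArg (evalInt t ht) pw1_mul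
  simp only [map_mul, map_pow, map_sub, map_one, evalInt_apply, ev_X] at h
  have h1 := one_sub_ne_zero_of_norm_lt ht
  unfold F1
  field_simp
  linear_combination h

theorem ev_pw2 {t : K} (ht : ‖t‖ < 1) : ev t (pw 2) = F2 t := by
  have h := congrArg (evalInt t ht) pw2_mul
  simp only [map_mul, map_pow, map_sub, map_add, map_one, evalInt_apply, ev_X] at h
  have h1 := one_sub_ne_zero_of_norm_lt ht
  unfold F2
  field_simp
  linear_combination h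

theorem ev_pw3 {t : K} (ht : ‖t‖ < 1) : ev t (pw 3) = F3 t := by
  have h := congrArg (evalInt t ht) pw3_mul
  simp only [map_mul, map_pow, map_sub, map_add, map_one, map_ofNat, evalInt_apply, ev_X] at h
  have h1 := one_sub_ne_zero_of_norm_lt ht
  unfold F3
  field_simp
  linear_combination h

theorem ev_pw4 {t : K} (ht : ‖t‖ < 1) : ev t (pw 4) = F4 t := by
  have h := congrArg (evalInt t ht) pw4_mul
  simp only [map_mul, map_pow, map_sub, map_add, map_one, map_ofNat, evalInt_apply, ev_X] at h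
  have h1 := one_sub_ne_zero_of_norm_lt ht
  unfold F4
  field_simp
  linear_combination h

/-! ### the two-weight Lambert regrouping -/

/-- the power series `∑_n (∑_{d e = n} g d · h e) X^n`. -/
def lam2 (g h : ℕ → ℤ) : PowerSeries ℤ :=
  PowerSeries.mk fun m => ∑ x ∈ m.divisorsAntidiagonal, g x.1 * h x.2

@[simp] theorem coeff_lam2 (g h : ℕ → ℤ) (m : ℕ) :
    coeff m (lam2 g h) = ∑ x ∈ m.divisorsAntidiagonal, g x.1 * h x.2 := by
  simp [lam2]

/-- the double family of the two-weight regrouping. -/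
def lamFam2 (g h : ℕ → ℤ) (q : K) (p : ℕ+ × ℕ+) : K :=
  ((g (p.1 : ℕ) * h (p.2 : ℕ) : ℤ) : K) * q ^ ((p.1 : ℕ) * (p.2 : ℕ))

theorem summable_lamFam2 (g h : ℕ → ℤ) {q : K} (hq : ‖q‖ < 1) : Summable (lamFam2 g h q) := by
  have hs := summable_prod_mul_pow (𝕜 := ℝ) 0 (r := ‖q‖) (by rwa [norm_norm])
  refine Summable.of_norm_bounded hs fun p => ?_
  rw [lamFam2, norm_mul, norm_pow, pow_zero, one_mul]
  calc ‖((g (p.1 : ℕ) * h (p.2 : ℕ) : ℤ) : K)‖ * ‖q‖ ^ ((p.1 : ℕ) * (p.2 : ℕ))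
      ≤ 1 * ‖q‖ ^ ((p.1 : ℕ) * (p.2 : ℕ)) := by
        gcongr
        exact IsUltrametricDist.norm_intCast_le_one K _
    _ = ‖q‖ ^ ((p.1 : ℕ) * (p.2 : ℕ)) := one_mul _

theorem hasSum_lam2_pnat (g h : ℕ → ℤ) {q : K} (hq : ‖q‖ < 1) :
    HasSum (fun n : ℕ+ => ((coeff (n : ℕ) (lam2 g h) : ℤ) : K) * q ^ (n : ℕ))
      (∑' p : ℕ+ × ℕ+, lamFam2 g h q p) := by
  have hS := (summable_lamFam2 g h hq).hasSum
  have hS' := sigmaAntidiagonalEquivProd.hasSum_iff.mpr hS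
  refine hS'.sigma fun n => ?_
  have hfin := hasSum_fintype (fun c : Nat.divisorsAntidiagonal (n : ℕ) =>
    ((lamFam2 g h q) ∘ sigmaAntidiagonalEquivProd) ⟨n, c⟩)
  convert hfin using 1
  rw [coeff_lam2, Int.cast_sum, Finset.sum_mul, Finset.univ_eq_attach,
    ← Finset.sum_attach (n : ℕ).divisorsAntidiagonal]
  refine Finset.sum_congr rfl fun x _ => ?_
  have hx : ((divisorsAntidiagonalFactors n x).1 : ℕ) * ((divisorsAntidiagonalFactors n x).2 : ℕ)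
      = (n : ℕ) := divisorsAntidiagonalFactors_eq x
  change _ = ((g ((divisorsAntidiagonalFactors n x).1 : ℕ) *
      h ((divisorsAntidiagonalFactors n x).2 : ℕ) : ℤ) : K) *
    q ^ (((divisorsAntidiagonalFactors n x).1 : ℕ) * ((divisorsAntidiagonalFactors n x).2 : ℕ))
  rw [hx]
  rfl

theorem ev_lam2 (g h : ℕ → ℤ) {q : K} (hq : ‖q‖ < 1) :
    ev q (lam2 g h) = ∑' p : ℕ+ × ℕ+, lamFam2 g h q p := by
  have h1 := hasSum_lam2_pnat g h hq
  have h2 := (hasSum_pnat_iff_hasSum_succ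
    (f := fun n : ℕ => ((coeff n (lam2 g h) : ℤ) : K) * q ^ n)).mp h1
  have h3 := (hasSum_nat_add_iff
    (f := fun n : ℕ => ((coeff n (lam2 g h) : ℤ) : K) * q ^ n) 1).mp h2
  have h4 : HasSum (fun n : ℕ => ((coeff n (lam2 g h) : ℤ) : K) * q ^ n)
      (∑' p : ℕ+ × ℕ+, lamFam2 g h q p) := by
    simpa using h3
  exact h4.tsum_eq

theorem tsum_lamFam2_inner (g h : ℕ → ℤ) (h0 : h 0 = 0) {q : K} (hq : ‖q‖ < 1) (b : ℕ+) :
    ∑' c : ℕ+, lamFam2 g h q (b, c) =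
      ((g (b : ℕ) : ℤ) : K) * ev (q ^ (b : ℕ)) (PowerSeries.mk h) := by
  have hb : ‖q ^ (b : ℕ)‖ < 1 := by
    rw [norm_pow]
    exact pow_lt_one₀ (norm_nonneg _) hq b.ne_zero
  have h1 : ∀ c : ℕ+, lamFam2 g h q (b, c) =
      ((g (b : ℕ) : ℤ) : K) * (((h (c : ℕ) : ℤ) : K) * (q ^ (b : ℕ)) ^ (c : ℕ)) := by
    intro c
    rw [lamFam2, pow_mul]
    push_cast
    ring
  simp_rw [h1]
  rw [tsum_mul_left]
  congr 1
  rw [tsum_pnat_eq_tsum_succ (f := fun m : ℕ => ((h m : ℤ) : K) * (q ^ (b : ℕ)) ^ m)]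
  have hsum := summable_evTerm hb (PowerSeries.mk h)
  rw [ev, hsum.tsum_eq_zero_add]
  have hz : evTerm (q ^ (b : ℕ)) (PowerSeries.mk h) 0 = 0 := by
    simp [evTerm, h0]
  rw [hz, zero_add]
  refine tsum_congr fun m => ?_
  simp [evTerm]

/-- **two-weight Lambert regrouping.** -/
theorem tsum_lambert2 (g h : ℕ → ℤ) (h0 : h 0 = 0) {q : K} (hq : ‖q‖ < 1) :
    ∑' d : ℕ, ((g (d + 1) : ℤ) : K) * ev (q ^ (d + 1)) (PowerSeries.mk h) =
      ev q (lam2 g h) := by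
  rw [ev_lam2 g h hq, (summable_lamFam2 g h hq).tsum_prod]
  simp_rw [tsum_lamFam2_inner g h h0 hq]
  rw [tsum_pnat_eq_tsum_succ
    (f := fun n : ℕ => ((g n : ℤ) : K) * ev (q ^ n) (PowerSeries.mk h))]

/-! ### the formal series -/

open scoped ArithmeticFunction.sigma in
theorem lam2_one_pw (b : ℕ) : lam2 (fun _ => 1) (fun m => (m : ℤ) ^ b) = sigmaSeries b := by
  ext m
  rw [coeff_lam2, sigmaSeries, coeff_mk]
  split_ifs with h
  · subst h
    simp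
  · rw [ArithmeticFunction.sigma_apply,
      Nat.sum_divisorsAntidiagonal' (f := fun _ e => (1 : ℤ) * (e : ℤ) ^ b)]
    push_cast
    simp

open scoped ArithmeticFunction.sigma in
theorem lam2_id_pw (b : ℕ) :
    lam2 (fun d => (d : ℤ)) (fun m => (m : ℤ) ^ (b + 1)) = theta ℤ (sigmaSeries b) := by
  ext m
  rw [coeff_lam2, coeff_theta, sigmaSeries, coeff_mk]
  split_ifs with h
  · subst h
    simp
  · rw [ArithmeticFunction.sigma_apply]
    have h1 : ∀ x ∈ m.divisorsAntidiagonal, (x.1 : ℤ) * (x.2 : ℤ) ^ (b + 1) =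
        (m : ℤ) * (x.2 : ℤ) ^ b := by
      intro x hx
      have hm := (Nat.mem_divisorsAntidiagonal.1 hx).1
      rw [pow_succ, ← hm]
      push_cast
      ring
    rw [Finset.sum_congr rfl h1, ← Finset.mul_sum,
      Nat.sum_divisorsAntidiagonal' (f := fun _ e => (e : ℤ) ^ b)]
    push_cast
    rfl

/-! ### the constants of `Pair.lean` -/

section Consts

variable {q : K} (hq1 : ‖q‖ < 1)

include hq1

theorem tsum_F1 : ∑' d : ℕ, F1 (q ^ (d + 1)) = sK 1 q := by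
  have h := tsum_lambert2 (K := K) (fun _ => 1) (fun m => (m : ℤ) ^ 1) (by simp) hq1
  rw [lam2_one_pw, ← sK_eq_ev 1 hq1] at h
  rw [← h]
  refine tsum_congr fun d => ?_
  have := ev_pw1 (norm_pow_lt_one hq1 d)
  rw [pw] at this
  rw [this]
  simp

theorem tsum_F3 : ∑' d : ℕ, F3 (q ^ (d + 1)) = sK 3 q := by
  have h := tsum_lambert2 (K := K) (fun _ => 1) (fun m => (m : ℤ) ^ 3) (by simp) hq1
  rw [lam2_one_pw, ← sK_eq_ev 3 hq1] at h
  rw [← h]
  refine tsum_congr fun d => ?_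
  have := ev_pw3 (norm_pow_lt_one hq1 d)
  rw [pw] at this
  rw [this]
  simp

theorem tsum_F2 :
    ∑' d : ℕ, ((d : K) + 1) * F2 (q ^ (d + 1)) = ev q (theta ℤ (sigmaSeries 1)) := by
  have h := tsum_lambert2 (K := K) (fun d => (d : ℤ)) (fun m => (m : ℤ) ^ 2) (by simp) hq1
  rw [lam2_id_pw 1] at h
  rw [← h]
  refine tsum_congr fun d => ?_
  have := ev_pw2 (norm_pow_lt_one hq1 d)
  rw [pw] at this
  rw [this]
  push_cast
  ring

theorem tsum_F4 :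
    ∑' d : ℕ, ((d : K) + 1) * F4 (q ^ (d + 1)) = ev q (theta ℤ (sigmaSeries 3)) := by
  have h := tsum_lambert2 (K := K) (fun d => (d : ℤ)) (fun m => (m : ℤ) ^ 4) (by simp) hq1
  rw [lam2_id_pw 3] at h
  rw [← h]
  refine tsum_congr fun d => ?_
  have := ev_pw4 (norm_pow_lt_one hq1 d)
  rw [pw] at this
  rw [this]
  push_cast
  ring

theorem kS1_eq : kS1 q = sK 1 q := tsum_F1 hq1

theorem kT2_eq : kT2 q = ev q (theta ℤ (sigmaSeries 1)) := tsum_F2 hq1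

theorem six_kSA : 6 * kSA q = 5 * sK 3 q + sK 1 q := by
  have h3 : HasSum (fun d : ℕ => F3 (q ^ (d + 1))) (sK 3 q) := by
    rw [← tsum_F3 hq1]
    exact (summable_kernel_one hq1 continuousAt_F3 F3_zero).hasSum
  have h1 : HasSum (fun d : ℕ => F1 (q ^ (d + 1))) (sK 1 q) := by
    rw [← tsum_F1 hq1]
    exact (summable_kS1 hq1).hasSum
  have hA : HasSum (fun d : ℕ => 6 * GA (q ^ (d + 1))) (6 * kSA q) :=
    (summable_kSA hq1).hasSum.mul_left 6
  have hfun : (fun d : ℕ => 6 * GA (q ^ (d + 1))) =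
      fun d : ℕ => 5 * F3 (q ^ (d + 1)) + F1 (q ^ (d + 1)) := by
    funext d
    exact six_GA (pow_succ_ne_one hq1 d)
  rw [hfun] at hA
  exact hA.unique ((h3.mul_left 5).add h1)

theorem six_kTC : 6 * kTC q = 5 * ev q (theta ℤ (sigmaSeries 3)) + kT2 q := by
  have h4 : HasSum (fun d : ℕ => ((d : K) + 1) * F4 (q ^ (d + 1)))
      (ev q (theta ℤ (sigmaSeries 3))) := by
    rw [← tsum_F4 hq1]
    exact (summable_kernel hq1 continuousAt_F4 F4_zero _ norm_natCast_succ_le).hasSum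
  have h2 : HasSum (fun d : ℕ => ((d : K) + 1) * F2 (q ^ (d + 1))) (kT2 q) :=
    (summable_kT2 hq1).hasSum
  have hC : HasSum (fun d : ℕ => 6 * (((d : K) + 1) * GC (q ^ (d + 1)))) (6 * kTC q) :=
    (summable_kTC hq1).hasSum.mul_left 6
  have hfun : (fun d : ℕ => 6 * (((d : K) + 1) * GC (q ^ (d + 1)))) =
      fun d : ℕ => 5 * (((d : K) + 1) * F4 (q ^ (d + 1))) + ((d : K) + 1) * F2 (q ^ (d + 1)) := by
    funext d
    have := six_GC (pow_succ_ne_one hq1 d)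
    linear_combination ((d : K) + 1) * this
  rw [hfun] at hC
  exact hC.unique ((h4.mul_left 5).add h2)

end Consts

/-! ### Ramanujan's identities in the form used -/

theorem theta_e2Z_eq : theta ℤ e2Z = -24 * theta ℤ (sigmaSeries 1) := by
  rw [e2Z]
  have h24 : (24 : ℤ⟦X⟧) = ((24 : ℕ) : ℤ⟦X⟧) := by norm_num
  rw [map_sub, Derivation.map_one_eq_zero, Derivation.leibniz, h24, Derivation.map_natCast]
  simp

theorem theta_e4Z_eq : theta ℤ e4Z = 240 * theta ℤ (sigmaSeries 3) := by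
  rw [e4Z]
  have h24 : (240 : ℤ⟦X⟧) = ((240 : ℕ) : ℤ⟦X⟧) := by norm_num
  rw [map_add, Derivation.map_one_eq_zero, Derivation.leibniz, h24, Derivation.map_natCast]
  simp

theorem natCast_ps_ne_zero (n : ℕ) (hn : n ≠ 0) : ((n : ℕ) : ℤ⟦X⟧) ≠ 0 := by
  intro h0
  have h2 := congrArg (constantCoeff (R := ℤ)) h0
  rw [map_natCast, map_zero] at h2
  exact hn (by exact_mod_cast h2)

/-- `6 θσ₁ = σ₁ - 12 σ₁² + 5 σ₃` (Ramanujan, from `theta_e2Z`). -/
theorem R1f : 6 * theta ℤ (sigmaSeries 1) =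
    sigmaSeries 1 - 12 * sigmaSeries 1 ^ 2 + 5 * sigmaSeries 3 := by
  have h := theta_e2Z
  rw [theta_e2Z_eq, e2Z, e4Z] at h
  have h48 : (48 : ℤ⟦X⟧) ≠ 0 := by
    have := natCast_ps_ne_zero 48 (by norm_num)
    simpa using this
  apply mul_left_cancel₀ h48
  linear_combination (-1 : ℤ⟦X⟧) * h

/-- `30 θσ₃ = 10 σ₃ - σ₁ - 240 σ₁σ₃ + 21 σ₅` (Ramanujan, from `theta_e4Z`). -/
theorem R2f : 30 * theta ℤ (sigmaSeries 3) =
    10 * sigmaSeries 3 - sigmaSeries 1 - 240 * (sigmaSeries 1 * sigmaSeries 3)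
      + 21 * sigmaSeries 5 := by
  have h := theta_e4Z
  rw [theta_e4Z_eq, e2Z, e4Z, e6Z] at h
  have h24 : (24 : ℤ⟦X⟧) ≠ 0 := by
    have := natCast_ps_ne_zero 24 (by norm_num)
    simpa using this
  apply mul_left_cancel₀ h24
  linear_combination h

end Fermat.Agent.GZ.Tate.WeqD
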