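/-
GATE-Z (S15) / [MOD-beta] GZ-MODB-WEQ-DIRECT (helper68), file 6: the sum of cubes
`C₃ = ∑ₙ φ(qⁿu)³` (needed for `D⁴X`, binder (I4) of T5):

  `three_mul_CC : 3 C₃ = 3 P W - (θ₃ - θ₁) - (4 s₃ - s₁) P - 6 s₁ W`

(`θ_k = ev q (θ σ_k)`), from the pair sum `P·W` by the method of `Pair.lean`.
-/
import Mathlib
import Fermat.Agent.GZ.Tate.WeqD.Lambert

set_option autoImplicit false
set_option linter.unusedSectionVars false

noncomputable section

namespace Fermat.Agent.GZ.Tate.WeqD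

open PowerSeries Filter Topology Fermat.Agent.GZ.Tate Fermat.Agent.GZ.Tate.T0
  Fermat.Agent.S16.L1h67 Fermat.Agent.S16.RAM

variable {K : Type*} [NormedField K] [IsUltrametricDist K] [CompleteSpace K]

/-- the two halves of `4F₃ - F₁`. -/
def GBl (t : K) : K := 3 * t ^ 2 * (3 + t) / (1 - t) ^ 4

def GBr (t : K) : K := 3 * t * (1 + 3 * t) / (1 - t) ^ 4

omit [IsUltrametricDist K] [CompleteSpace K] in
theorem GBl_add_GBr {t : K} (ht : t ≠ 1) : GBl t + GBr t = 4 * F3 t - F1 t := by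
  have h1 : (1 : K) - t ≠ 0 := sub_ne_zero.2 (Ne.symm ht)
  unfold GBl GBr F3 F1
  field_simp
  ring

omit [IsUltrametricDist K] [CompleteSpace K] in
/-- **pair product `φ·φ²`** (symmetrised, times `3`). -/
theorem phiphi2_sym {a t : K} (ha : a ≠ 1) (hta : t * a ≠ 1) (ht : t ≠ 1) :
    3 * (xTerm a * xTerm (t * a) ^ 2 + xTerm (t * a) * xTerm a ^ 2) =
      (F2 t - F4 t) * (fT a - fT (t * a)) + GBl t * xTerm a + GBr t * xTerm (t * a)
        + 3 * F2 t * (yTerm (t * a) - yTerm a)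
        + 3 * F1 t * (xTerm a ^ 2 + xTerm (t * a) ^ 2) := by
  have h1 : (1 : K) - a ≠ 0 := sub_ne_zero.2 (Ne.symm ha)
  have h2 : (1 : K) - t * a ≠ 0 := sub_ne_zero.2 (Ne.symm hta)
  have h2' : (1 : K) - a * t ≠ 0 := by rwa [mul_comm a t]
  have h3 : (1 : K) - t ≠ 0 := sub_ne_zero.2 (Ne.symm ht)
  unfold xTerm yTerm fT F1 F2 F4 GBl GBr
  field_simp
  ring

/-- `C₃ = ∑ₙ φ(qⁿu)³`. -/
def CC (q u : K) : K := ∑' n : ℤ, xTerm (wq q u n) ^ 3

section

variable {q u : K} (hq0 : q ≠ 0) (hq1 : ‖q‖ < 1) (hu : IsAdm q u)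

include hq0 hq1 hu

theorem hasSum_phiphi2 (d : ℕ) :
    HasSum (fun n : ℤ => 3 * (xTerm (wq q u n) * xTerm (wq q u (n + ((d : ℤ) + 1))) ^ 2 +
          xTerm (wq q u (n + ((d : ℤ) + 1))) * xTerm (wq q u n) ^ 2))
      (((d : K) + 1) * F4 (q ^ (d + 1)) - ((d : K) + 1) * F2 (q ^ (d + 1))
        + (4 * F3 (q ^ (d + 1)) - F1 (q ^ (d + 1))) * PP q u
        + 6 * F1 (q ^ (d + 1)) * WW q u) := by
  have hT := hasSum_tele hq0 hq1 hu ((d : ℤ) + 1)
  have hP := hasSum_PP hq0 hq1 hu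
  have hP' := hasSum_shift hP ((d : ℤ) + 1)
  have hQ := hasSum_QQ hq0 hq1 hu
  have hQ' := hasSum_shift hQ ((d : ℤ) + 1)
  have hW := hasSum_WW hq0 hq1 hu
  have hW' := hasSum_shift hW ((d : ℤ) + 1)
  have h := ((((hT.mul_left (F2 (q ^ (d + 1)) - F4 (q ^ (d + 1)))).add
    (hP.mul_left (GBl (q ^ (d + 1))))).add
    (hP'.mul_left (GBr (q ^ (d + 1))))).add ((hQ'.sub hQ).mul_left (3 * F2 (q ^ (d + 1))))).add
    ((hW.add hW').mul_left (3 * F1 (q ^ (d + 1))))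
  have hfun : (fun n : ℤ => 3 * (xTerm (wq q u n) * xTerm (wq q u (n + ((d : ℤ) + 1))) ^ 2 +
          xTerm (wq q u (n + ((d : ℤ) + 1))) * xTerm (wq q u n) ^ 2)) =
      fun n : ℤ => (F2 (q ^ (d + 1)) - F4 (q ^ (d + 1))) *
          (fT (wq q u n) - fT (wq q u (n + ((d : ℤ) + 1))))
        + GBl (q ^ (d + 1)) * xTerm (wq q u n)
        + GBr (q ^ (d + 1)) * xTerm (wq q u (n + ((d : ℤ) + 1)))
        + 3 * F2 (q ^ (d + 1)) * (yTerm (wq q u (n + ((d : ℤ) + 1))) - yTerm (wq q u n))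
        + 3 * F1 (q ^ (d + 1)) *
          (xTerm (wq q u n) ^ 2 + xTerm (wq q u (n + ((d : ℤ) + 1))) ^ 2) := by
    funext n
    rw [wq_add_nat hq0]
    exact phiphi2_sym (wq_ne_one hu n) (shift_ne_one hq0 hq1 hu n d) (pow_succ_ne_one hq1 d)
  have hv : ((d : K) + 1) * F4 (q ^ (d + 1)) - ((d : K) + 1) * F2 (q ^ (d + 1))
        + (4 * F3 (q ^ (d + 1)) - F1 (q ^ (d + 1))) * PP q u
        + 6 * F1 (q ^ (d + 1)) * WW q u =
      (F2 (q ^ (d + 1)) - F4 (q ^ (d + 1))) * -((((d : ℤ) + 1 : ℤ)) : K)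
        + GBl (q ^ (d + 1)) * PP q u + GBr (q ^ (d + 1)) * PP q u
        + 3 * F2 (q ^ (d + 1)) * (QQ q u - QQ q u)
        + 3 * F1 (q ^ (d + 1)) * (WW q u + WW q u) := by
    have h4 := GBl_add_GBr (pow_succ_ne_one hq1 d)
    push_cast
    linear_combination (-(PP q u)) * h4
  rw [hfun, hv]
  exact h

theorem summable_xTerm_cube : Summable (fun n : ℤ => xTerm (wq q u n) ^ 3) := by
  have h := summable_xTerm hq0 hq1 hu
  have h2 := summable_xTerm_sq hq0 hq1 hu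
  have := summable_mul_self h h2
  refine this.congr fun n => ?_
  ring

/-- **`3 C₃ = 3 P W - (θ₃ - θ₁) - (4 s₃ - s₁) P - 6 s₁ W`.** -/
theorem three_mul_CC :
    3 * CC q u = 3 * (PP q u * WW q u)
      - (ev q (theta ℤ (sigmaSeries 3)) - ev q (theta ℤ (sigmaSeries 1)))
      - (4 * sK 3 q - sK 1 q) * PP q u - 6 * sK 1 q * WW q u := by
  have hX := summable_xTerm hq0 hq1 hu
  have hW := summable_xTerm_sq hq0 hq1 hu
  have hXW := tsum_mul_tsum_offdiag hX hW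
  have hdiag : ∑' n : ℤ, xTerm (wq q u n) * xTerm (wq q u n) ^ 2 = CC q u := by
    unfold CC
    refine tsum_congr fun n => ?_
    ring
  -- the off-diagonal part, times 3
  have h4 : HasSum (fun d : ℕ => ((d : K) + 1) * F4 (q ^ (d + 1)))
      (ev q (theta ℤ (sigmaSeries 3))) := by
    rw [← tsum_F4 hq1]
    exact (summable_kernel hq1 continuousAt_F4 F4_zero _ norm_natCast_succ_le).hasSum
  have h2 : HasSum (fun d : ℕ => ((d : K) + 1) * F2 (q ^ (d + 1)))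
      (ev q (theta ℤ (sigmaSeries 1))) := by
    rw [← tsum_F2 hq1]
    exact (summable_kT2 hq1).hasSum
  have h3 : HasSum (fun d : ℕ => F3 (q ^ (d + 1))) (sK 3 q) := by
    rw [← tsum_F3 hq1]
    exact (summable_kernel_one hq1 continuousAt_F3 F3_zero).hasSum
  have h1 : HasSum (fun d : ℕ => F1 (q ^ (d + 1))) (sK 1 q) := by
    rw [← tsum_F1 hq1]
    exact (summable_kS1 hq1).hasSum
  have hval : HasSum (fun d : ℕ => ((d : K) + 1) * F4 (q ^ (d + 1))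
        - ((d : K) + 1) * F2 (q ^ (d + 1))
        + (4 * F3 (q ^ (d + 1)) - F1 (q ^ (d + 1))) * PP q u
        + 6 * F1 (q ^ (d + 1)) * WW q u)
      (ev q (theta ℤ (sigmaSeries 3)) - ev q (theta ℤ (sigmaSeries 1))
        + (4 * sK 3 q - sK 1 q) * PP q u + 6 * sK 1 q * WW q u) :=
    ((h4.sub h2).add (((h3.mul_left 4).sub h1).mul_right (PP q u))).add
      ((h1.mul_left 6).mul_right (WW q u))
  have hoff : HasSum (fun d : ℕ => 3 * ∑' n : ℤ,
      (xTerm (wq q u n) * xTerm (wq q u (n + ((d : ℤ) + 1))) ^ 2 +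
        xTerm (wq q u (n + ((d : ℤ) + 1))) * xTerm (wq q u n) ^ 2))
      (3 * ∑' d : ℕ, ∑' n : ℤ,
      (xTerm (wq q u n) * xTerm (wq q u (n + ((d : ℤ) + 1))) ^ 2 +
        xTerm (wq q u (n + ((d : ℤ) + 1))) * xTerm (wq q u n) ^ 2)) :=
    (summable_offdiag hX hW).hasSum.mul_left 3
  have hfun : (fun d : ℕ => 3 * ∑' n : ℤ,
      (xTerm (wq q u n) * xTerm (wq q u (n + ((d : ℤ) + 1))) ^ 2 +
        xTerm (wq q u (n + ((d : ℤ) + 1))) * xTerm (wq q u n) ^ 2)) =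
      fun d : ℕ => ((d : K) + 1) * F4 (q ^ (d + 1))
        - ((d : K) + 1) * F2 (q ^ (d + 1))
        + (4 * F3 (q ^ (d + 1)) - F1 (q ^ (d + 1))) * PP q u
        + 6 * F1 (q ^ (d + 1)) * WW q u := by
    funext d
    have hin := (summable_offdiag_inner hX hW d).hasSum.mul_left 3
    exact hin.unique (hasSum_phiphi2 hq0 hq1 hu d)
  rw [hfun] at hoff
  have hkey := hoff.unique hval
  have e3 : PP q u * WW q u =
      (∑' n : ℤ, xTerm (wq q u n)) * ∑' n : ℤ, xTerm (wq q u n) ^ 2 := by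
    rw [PP, WW]
  rw [e3, hXW, hdiag]
  linear_combination (-1 : K) * hkey

end

end Fermat.Agent.GZ.Tate.WeqD
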