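/-
GATE-Z (S15) / [MOD-beta] GZ-MODB-WEQ-DIRECT (helper68), file 5: the WEIERSTRASS EQUATION of the
Tate curve, in helper72's vocabulary (`GZ/Tate/Defs.lean`):

  `weierstrass_equation : Y q u ^ 2 + X q u * Y q u = X q u ^ 3 + a4 q * X q u + a6 q`
  `equation             : (tateCurve q).toAffine.Equation (X q u) (Y q u)`

for `K` a complete ultrametric normed field with `(6 : K) ≠ 0` (e.g. characteristic zero),
`q ≠ 0`, `‖q‖ < 1`, `IsAdm q u`.  Direct proof: partial fractions (`Alg.lean`), sums over `ℤ`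
(`Sums.lean`), pair sums (`Pair.lean`), Lambert regrouping and Ramanujan's identities
(`Lambert.lean`); no complex analysis, no identity principle.

By-products: `X_sq : X² = W + κ` with `κ = (5 s₃ + s₁)/3` (`three_mul_X_sq`), i.e. the second order
relation `u d/du (u dX/du) = 6X² + X + 2a₄` in summed form.
-/
import Mathlib
import Fermat.Agent.GZ.Tate.WeqD.Lambert

set_option autoImplicit false
set_option linter.unusedSectionVars false

noncomputable section

namespace Fermat.Agent.GZ.Tate.WeqD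

open PowerSeries Fermat.Agent.GZ.Tate Fermat.Agent.GZ.Tate.T0 Fermat.Agent.S16.L1h67
  Fermat.Agent.S16.RAM

variable {K : Type*} [NormedField K] [IsUltrametricDist K] [CompleteSpace K]

theorem X_eq_PP (q u : K) : Fermat.Agent.GZ.Tate.X q u = PP q u - 2 * sK 1 q := rfl

theorem Y_eq_QQ (q u : K) : Y q u = QQ q u + sK 1 q := rfl

section

variable {q : K} (hq1 : ‖q‖ < 1)

include hq1

/-- Ramanujan's `E₂`-identity evaluated in `K`. -/
theorem R1K : 6 * ev q (theta ℤ (sigmaSeries 1)) =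
    sK 1 q - 12 * sK 1 q ^ 2 + 5 * sK 3 q := by
  have h := congrArg (evalInt q hq1) R1f
  simp only [map_mul, map_sub, map_add, map_pow, map_ofNat, evalInt_apply] at h
  rw [sK_eq_ev 1 hq1, sK_eq_ev 3 hq1]
  exact h

/-- Ramanujan's `E₄`-identity evaluated in `K`. -/
theorem R2K : 30 * ev q (theta ℤ (sigmaSeries 3)) =
    10 * sK 3 q - sK 1 q - 240 * (sK 1 q * sK 3 q) + 21 * sK 5 q := by
  have h := congrArg (evalInt q hq1) R2f
  simp only [map_mul, map_sub, map_add, map_ofNat, evalInt_apply] at h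
  rw [sK_eq_ev 1 hq1, sK_eq_ev 3 hq1, sK_eq_ev 5 hq1]
  exact h

theorem twelve_a6 : 12 * a6 q = -(5 * sK 3 q + 7 * sK 5 q) := by
  have h := congrArg (evalInt q hq1) twelve_mul_cSeries
  simp only [map_mul, map_add, map_ofNat, evalInt_apply] at h
  rw [a6_eq hq1, sK_eq_ev 3 hq1, sK_eq_ev 5 hq1]
  linear_combination -h

end

section

variable {q u : K} (hq0 : q ≠ 0) (hq1 : ‖q‖ < 1) (hu : IsAdm q u)

include hq0 hq1 hu

/-- **`3 X² = 3 W + 5 s₃ + s₁`** (the second order relation in summed form). -/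
theorem three_mul_X_sq :
    3 * Fermat.Agent.GZ.Tate.X q u ^ 2 = 3 * WW q u + 5 * sK 3 q + sK 1 q := by
  have hI := PP_sq hq0 hq1 hu
  rw [kS1_eq hq1, kT2_eq hq1] at hI
  have hR1 := R1K hq1
  rw [X_eq_PP]
  linear_combination 3 * hI + hR1

/-- **THE WEIERSTRASS EQUATION OF THE TATE CURVE.** -/
theorem weierstrass_equation (h6 : (6 : K) ≠ 0) :
    Y q u ^ 2 + Fermat.Agent.GZ.Tate.X q u * Y q u =
      Fermat.Agent.GZ.Tate.X q u ^ 3 + a4 q * Fermat.Agent.GZ.Tate.X q u + a6 q := by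
  have hI := PP_sq hq0 hq1 hu
  have hII := main_rel hq0 hq1 hu
  rw [kS1_eq hq1, kT2_eq hq1] at hI
  rw [kS1_eq hq1] at hII
  have hΘ := six_kTC hq1
  rw [kT2_eq hq1] at hΘ
  have hΛ := six_kSA hq1
  have hR1 := R1K hq1
  have hR2 := R2K hq1
  have ha6 := twelve_a6 hq1
  rw [X_eq_PP, Y_eq_QQ, a4]
  have h36 : (36 : K) ≠ 0 := by
    have : (36 : K) = 6 * 6 := by norm_num
    rw [this]
    exact mul_ne_zero h6 h6
  apply mul_left_cancel₀ h36
  linear_combination 36 * hII - 36 * (PP q u - 2 * sK 1 q) * hI - 6 * hΘ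
    - 24 * PP q u * hΛ - 3 * ha6 + (-1 - 12 * PP q u + 24 * sK 1 q) * hR1 - hR2

/-- the point `(X(u), Y(u))` lies on the Tate curve. -/
theorem equation (h6 : (6 : K) ≠ 0) :
    (tateCurve q).toAffine.Equation (Fermat.Agent.GZ.Tate.X q u) (Y q u) := by
  rw [WeierstrassCurve.Affine.equation_iff]
  have h := weierstrass_equation hq0 hq1 hu h6
  simp only [tateCurve]
  linear_combination h

/-- characteristic zero version. -/
theorem equation_of_charZero [CharZero K] :
    (tateCurve q).toAffine.Equation (Fermat.Agent.GZ.Tate.X q u) (Y q u) :=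
  equation hq0 hq1 hu (by norm_num)

end

end Fermat.Agent.GZ.Tate.WeqD
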