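/-
GATE-Z (S15) / [MOD-beta] GZ-MODB-WEQ-DIRECT (helper68), file 7: PLUGS for the consumers.

Three of the four binders of `Out.TateBindersAt q` (helper91, `GZ/Tate/Out/Plug.lean`) as theorems,
for `K` complete ultrametric, `q ≠ 0`, `‖q‖ < 1`, `(6 : K) ≠ 0`:

* `hns : ∀ u, IsAdm q u → (tateCurve q).toAffine.Nonsingular (X q u) (Y q u)`   (T1);
* `i2  : T5.I2 q`   (`D²X = 6X² + X + 2a₄`, no hypothesis on `6`);
* `i4  : T5.I4 q`   (`D⁴X = 120X³ + 30X² + (72a₄+1)X + 48a₆ + 2a₄`);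
* `tateBindersAt_of_hgen` : the fourth one (`hgen`, T2-D) ⟹ `Out.TateBindersAt q`.
-/
import Mathlib
import Fermat.Agent.GZ.Tate.WeqD.Main
import Fermat.Agent.GZ.Tate.WeqD.Cubes
import Fermat.Agent.GZ.Tate.T5.Velu
import Fermat.Agent.GZ.Tate.Out.Plug

set_option autoImplicit false
set_option linter.unusedSectionVars false

noncomputable section

namespace Fermat.Agent.GZ.Tate.WeqD

open PowerSeries Fermat.Agent.GZ.Tate Fermat.Agent.GZ.Tate.T0 Fermat.Agent.S16.L1h67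
  Fermat.Agent.S16.RAM

variable {K : Type*} [NormedField K] [IsUltrametricDist K] [CompleteSpace K]

theorem T5F3_eq {w : K} (hw : w ≠ 1) : T5.F3 w = 6 * xTerm w ^ 2 + xTerm w := by
  have h1 : (1 : K) - w ≠ 0 := sub_ne_zero.2 (Ne.symm hw)
  unfold T5.F3 xTerm
  field_simp
  ring

theorem T5F5_eq {w : K} (hw : w ≠ 1) :
    T5.F5 w = 120 * xTerm w ^ 3 + 30 * xTerm w ^ 2 + xTerm w := by
  have h1 : (1 : K) - w ≠ 0 := sub_ne_zero.2 (Ne.symm hw)
  unfold T5.F5 xTerm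
  field_simp
  ring

section

variable {q : K} (hq0 : q ≠ 0) (hq1 : ‖q‖ < 1)

include hq0 hq1

/-- **(T1) `hns`**: every `P(u)` is a nonsingular point of the Tate curve. -/
theorem hns (h6 : (6 : K) ≠ 0) (u : K) (hu : IsAdm q u) :
    (tateCurve q).toAffine.Nonsingular (Fermat.Agent.GZ.Tate.X q u) (Y q u) :=
  (WeierstrassCurve.Affine.equation_iff_nonsingular_of_Δ_ne_zero
    (pinned_Δ_ne_zero q hq1 hq0)).1 (equation hq0 hq1 hu h6)

theorem S3_eq (u : K) (hu : IsAdm q u) : T5.S3 q u = 6 * WW q u + PP q u := by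
  have h : HasSum (fun n : ℤ => T5.F3 (q ^ n * u)) (6 * WW q u + PP q u) := by
    have hfun : (fun n : ℤ => T5.F3 (q ^ n * u)) =
        fun n : ℤ => 6 * xTerm (wq q u n) ^ 2 + xTerm (wq q u n) := by
      funext n
      exact T5F3_eq (hu.2 n)
    rw [hfun]
    exact ((hasSum_WW hq0 hq1 hu).mul_left 6).add (hasSum_PP hq0 hq1 hu)
  exact h.tsum_eq

theorem S5_eq (u : K) (hu : IsAdm q u) :
    T5.S5 q u = 120 * CC q u + 30 * WW q u + PP q u := by
  have h : HasSum (fun n : ℤ => T5.F5 (q ^ n * u)) (120 * CC q u + 30 * WW q u + PP q u) := by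
    have hfun : (fun n : ℤ => T5.F5 (q ^ n * u)) =
        fun n : ℤ => 120 * xTerm (wq q u n) ^ 3 + 30 * xTerm (wq q u n) ^ 2
          + xTerm (wq q u n) := by
      funext n
      exact T5F5_eq (hu.2 n)
    rw [hfun]
    exact ((((summable_xTerm_cube hq0 hq1 hu).hasSum.mul_left 120).add
      ((hasSum_WW hq0 hq1 hu).mul_left 30)).add (hasSum_PP hq0 hq1 hu))
  exact h.tsum_eq

/-- **(I2)** `D²X = 6X² + X + 2a₄`. -/
theorem i2 : T5.I2 q := by
  intro u hu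
  rw [S3_eq hq0 hq1 u hu]
  have h3 := three_mul_X_sq hq0 hq1 hu
  rw [X_eq_PP] at h3 ⊢
  rw [a4]
  linear_combination (-2 : K) * h3

/-- **(I4)** `D⁴X = 120X³ + 30X² + (72a₄ + 1)X + 48a₆ + 2a₄`. -/
theorem i4 (h6 : (6 : K) ≠ 0) : T5.I4 q := by
  intro u hu
  rw [S5_eq hq0 hq1 u hu]
  have hC := three_mul_CC hq0 hq1 hu
  have h3 := three_mul_X_sq hq0 hq1 hu
  have hR1 := R1K hq1
  have hR2 := R2K hq1
  have ha6 := twelve_a6 hq1
  rw [X_eq_PP] at h3 ⊢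
  rw [a4]
  have h3' : (3 : K) ≠ 0 := by
    intro h
    apply h6
    have : (6 : K) = 3 * 2 := by norm_num
    rw [this, h, zero_mul]
  apply mul_left_cancel₀ h3'
  linear_combination 120 * hC - (120 * (PP q u - 2 * sK 1 q) + 30) * h3 + 20 * hR1 - 4 * hR2
    - 12 * ha6

/-- three of the four binders of `Out.TateBindersAt`; the fourth (`hgen`) is T2-D. -/
theorem tateBindersAt_of_hgen (h6 : (6 : K) ≠ 0)
    (hgen : ∀ u v : K, IsAdm q u → IsAdm q v → IsAdm q (u * v) →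
      Fermat.Agent.GZ.Tate.X q u ≠ Fermat.Agent.GZ.Tate.X q v →
      T2.ColRel (Fermat.Agent.GZ.Tate.X q u) (Y q u) (Fermat.Agent.GZ.Tate.X q v) (Y q v)
          (Fermat.Agent.GZ.Tate.X q (u * v)) (Y q (u * v)) ∧
        T2.SumRel (Fermat.Agent.GZ.Tate.X q u) (Y q u) (Fermat.Agent.GZ.Tate.X q v) (Y q v)
          (Fermat.Agent.GZ.Tate.X q (u * v))) :
    Out.TateBindersAt q :=
  ⟨hns hq0 hq1 h6, hgen, i2 hq0 hq1, i4 hq0 hq1 h6⟩

end

end Fermat.Agent.GZ.Tate.WeqD
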