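/-
GATE-Z (S15) / [MOD-beta] GZ-MODB-WEQ-DIRECT (helper68), file 1: PARTIAL FRACTIONS.

The field identities behind the direct proof of the Weierstrass equation of the Tate curve
(`GZ/Tate/Defs.lean`, helper72's vocabulary).  With `f(w) = w/(1-w)`, `φ = xTerm`, `ψ = yTerm`,
`b = t·a`:

* `nodal`      : `ψ² + φψ = φ³` (the diagonal terms cancel);
* `phiphi_sym` : `2 φ(a)φ(b) = -2 F₂(t) (f(a) - f(b)) + 2 F₁(t) (φ(a) + φ(b))`;
* `esym`       : `2ψ(a)ψ(b) + (φ(a)ψ(b) + φ(b)ψ(a)) - (φ(a)φ(b)² + φ(b)φ(a)²)`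
                 `= GC(t)(f(a) - f(b)) - …φ(a) - …φ(b) + 2F₂(t)(ψ(a) - ψ(b)) - F₁(t)(φ(a)² + φ(b)²)`;
* `six_GA`, `six_GC` : `6·GA = 5F₃ + F₁`, `6·GC = 5F₄ + F₂`,

where `F_k(t) = ∑ m^k t^m` in closed form.  Everything is `field_simp; ring`.
-/
import Mathlib
import Fermat.Agent.GZ.Tate.Defs

set_option autoImplicit false

noncomputable section

namespace Fermat.Agent.GZ.Tate.WeqD

open Fermat.Agent.GZ.Tate

variable {K : Type*} [NormedField K]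

/-- `f(w) = w / (1 - w)`. -/
def fT (w : K) : K := w / (1 - w)

/-- `F₁(t) = t/(1-t)² = ∑ m t^m`. -/
def F1 (t : K) : K := t / (1 - t) ^ 2

/-- `F₂(t) = t(1+t)/(1-t)³ = ∑ m² t^m`. -/
def F2 (t : K) : K := t * (1 + t) / (1 - t) ^ 3

/-- `F₃(t) = t(1+4t+t²)/(1-t)⁴ = ∑ m³ t^m`. -/
def F3 (t : K) : K := t * (1 + 4 * t + t ^ 2) / (1 - t) ^ 4

/-- `F₄(t) = t(1+11t+11t²+t³)/(1-t)⁵ = ∑ m⁴ t^m`. -/
def F4 (t : K) : K := t * (1 + 11 * t + 11 * t ^ 2 + t ^ 3) / (1 - t) ^ 5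

/-- the kernel of the `P`-coefficient, `t(1+3t+t²)/(1-t)⁴ = (5F₃ + F₁)/6`. -/
def GA (t : K) : K := t * (1 + 3 * t + t ^ 2) / (1 - t) ^ 4

/-- the kernel of the constant term, `t(1+9t+9t²+t³)/(1-t)⁵ = (5F₄ + F₂)/6`. -/
def GC (t : K) : K := t * (1 + 9 * t + 9 * t ^ 2 + t ^ 3) / (1 - t) ^ 5

/-- the two halves of `4·GA`. -/
def GAl (t : K) : K := t * (1 + 6 * t + 3 * t ^ 2) / (1 - t) ^ 4

def GAr (t : K) : K := t * (3 + 6 * t + t ^ 2) / (1 - t) ^ 4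

theorem GAl_add_GAr {t : K} (ht : t ≠ 1) : GAl t + GAr t = 4 * GA t := by
  have h1 : (1 : K) - t ≠ 0 := sub_ne_zero.2 (Ne.symm ht)
  unfold GAl GAr GA
  field_simp
  ring

theorem six_GA {t : K} (ht : t ≠ 1) : 6 * GA t = 5 * F3 t + F1 t := by
  have h1 : (1 : K) - t ≠ 0 := sub_ne_zero.2 (Ne.symm ht)
  unfold GA F3 F1
  field_simp
  ring

theorem six_GC {t : K} (ht : t ≠ 1) : 6 * GC t = 5 * F4 t + F2 t := by
  have h1 : (1 : K) - t ≠ 0 := sub_ne_zero.2 (Ne.symm ht)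
  unfold GC F4 F2
  field_simp
  ring

theorem xTerm_eq_fT {w : K} (hw : w ≠ 1) : xTerm w = fT w + fT w ^ 2 := by
  have h1 : (1 : K) - w ≠ 0 := sub_ne_zero.2 (Ne.symm hw)
  unfold xTerm fT
  field_simp
  ring

theorem yTerm_eq_fT {w : K} (hw : w ≠ 1) : yTerm w = fT w ^ 2 + fT w ^ 3 := by
  have h1 : (1 : K) - w ≠ 0 := sub_ne_zero.2 (Ne.symm hw)
  unfold yTerm fT
  field_simp
  ring

/-- the nodal cubic `ψ² + φψ = φ³`. -/
theorem nodal {w : K} (hw : w ≠ 1) : yTerm w ^ 2 + xTerm w * yTerm w = xTerm w ^ 3 := by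
  have h1 : (1 : K) - w ≠ 0 := sub_ne_zero.2 (Ne.symm hw)
  unfold xTerm yTerm
  field_simp
  ring

/-- the basic partial fraction rule `f(a) f(ta) = c f(a) - (1 + c) f(ta)`, `c = t/(1-t)`. -/
theorem fT_mul_fT {a t : K} (ha : a ≠ 1) (hta : t * a ≠ 1) (ht : t ≠ 1) :
    fT a * fT (t * a) = fT t * fT a - (1 + fT t) * fT (t * a) := by
  have h1 : (1 : K) - a ≠ 0 := sub_ne_zero.2 (Ne.symm ha)
  have h2 : (1 : K) - t * a ≠ 0 := sub_ne_zero.2 (Ne.symm hta)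
  have h2' : (1 : K) - a * t ≠ 0 := by rwa [mul_comm a t]
  have h3 : (1 : K) - t ≠ 0 := sub_ne_zero.2 (Ne.symm ht)
  unfold fT
  field_simp
  ring

/-- **pair product `φφ`** (symmetrised). -/
theorem phiphi_sym {a t : K} (ha : a ≠ 1) (hta : t * a ≠ 1) (ht : t ≠ 1) :
    xTerm a * xTerm (t * a) + xTerm (t * a) * xTerm a =
      -(2 * F2 t) * (fT a - fT (t * a)) + 2 * F1 t * (xTerm a + xTerm (t * a)) := by
  have h1 : (1 : K) - a ≠ 0 := sub_ne_zero.2 (Ne.symm ha)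
  have h2 : (1 : K) - t * a ≠ 0 := sub_ne_zero.2 (Ne.symm hta)
  have h2' : (1 : K) - a * t ≠ 0 := by rwa [mul_comm a t]
  have h3 : (1 : K) - t ≠ 0 := sub_ne_zero.2 (Ne.symm ht)
  unfold xTerm fT F1 F2
  field_simp
  ring

/-- **the combined pair product** of `Q² + PQ - PW` (symmetrised). -/
theorem esym {a t : K} (ha : a ≠ 1) (hta : t * a ≠ 1) (ht : t ≠ 1) :
    (yTerm a * yTerm (t * a) + yTerm (t * a) * yTerm a)
      + (xTerm a * yTerm (t * a) + xTerm (t * a) * yTerm a)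
      - (xTerm a * xTerm (t * a) ^ 2 + xTerm (t * a) * xTerm a ^ 2) =
      GC t * (fT a - fT (t * a)) - GAl t * xTerm a - GAr t * xTerm (t * a)
        + 2 * F2 t * (yTerm a - yTerm (t * a))
        - F1 t * (xTerm a ^ 2 + xTerm (t * a) ^ 2) := by
  have h1 : (1 : K) - a ≠ 0 := sub_ne_zero.2 (Ne.symm ha)
  have h2 : (1 : K) - t * a ≠ 0 := sub_ne_zero.2 (Ne.symm hta)
  have h2' : (1 : K) - a * t ≠ 0 := by rwa [mul_comm a t]
  have h3 : (1 : K) - t ≠ 0 := sub_ne_zero.2 (Ne.symm ht)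
  unfold xTerm yTerm fT F1 F2 GC GAl GAr
  field_simp
  ring

end Fermat.Agent.GZ.Tate.WeqD
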