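/-
GATE-Z (S15) / [MOD-beta] GZ-MODB-WEQ-DIRECT (helper68), file 2: SUMS over `ℤ` in a complete
ultrametric field.

* `tsum_mul_tsum_offdiag` : for summable `G H : ℤ → K`,
  `(∑ G)(∑ H) = ∑ₙ GₙHₙ + ∑_{d ≥ 1} ∑ₙ (Gₙ H_{n+d} + G_{n+d} Hₙ)`;
* `wq q u n = qⁿ u`, summability of `e (qⁿ u)` for `e` continuous at `0` and at `∞` (`summable_wq`),
  in particular of `xTerm`, `yTerm` and of the regularised `f`;
* telescoping: `∑ₙ (f(qⁿu) - f(q^{n+d}u)) = -d` (`hasSum_tele`);
* kernels: `summable_kernel`.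
-/
import Mathlib
import Fermat.Agent.GZ.Tate.WeqD.Alg

set_option autoImplicit false
set_option linter.unusedSectionVars false

noncomputable section

namespace Fermat.Agent.GZ.Tate.WeqD

open Filter Topology Fermat.Agent.GZ.Tate

variable {K : Type*} [NormedField K] [IsUltrametricDist K] [CompleteSpace K]

/-- a complete ultrametric normed field is a nonarchimedean ring. -/
theorem nonarchimedeanRing_of_ultrametric : NonarchimedeanRing K :=
  { is_nonarchimedean := NonarchimedeanAddGroup.is_nonarchimedean }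

attribute [local instance] nonarchimedeanRing_of_ultrametric

/-! ### the off-diagonal decomposition of a product of two sums over `ℤ` -/

/-- the shear `(d, n) ↦ (n, n + d)` of `ℤ × ℤ`. -/
def shearEquiv : ℤ × ℤ ≃ ℤ × ℤ where
  toFun p := (p.2, p.2 + p.1)
  invFun p := (p.2 - p.1, p.1)
  left_inv p := by ext <;> simp
  right_inv p := by ext <;> simp

theorem summable_shear {G H : ℤ → K} (hG : Summable G) (hH : Summable H) :
    Summable (fun p : ℤ × ℤ => G p.2 * H (p.2 + p.1)) := by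
  have hprod : Summable (fun p : ℤ × ℤ => G p.1 * H p.2) := hG.mul_of_nonarchimedean hH
  exact (shearEquiv.summable_iff (f := fun p : ℤ × ℤ => G p.1 * H p.2)).2 hprod

theorem summable_shift_mul {G H : ℤ → K} (hG : Summable G) (hH : Summable H) (d : ℤ) :
    Summable (fun n : ℤ => G n * H (n + d)) :=
  (summable_shear hG hH).prod_factor d

theorem summable_mul_self {G H : ℤ → K} (hG : Summable G) (hH : Summable H) :
    Summable (fun n : ℤ => G n * H n) := by
  simpa using summable_shift_mul hG hH 0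

theorem tsum_mul_tsum_shear {G H : ℤ → K} (hG : Summable G) (hH : Summable H) :
    (∑' n, G n) * (∑' n, H n) = ∑' d : ℤ, ∑' n : ℤ, G n * H (n + d) := by
  rw [tsum_mul_tsum_of_nonarchimedean hG hH,
    ← shearEquiv.tsum_eq (fun p : ℤ × ℤ => G p.1 * H p.2)]
  exact (summable_shear hG hH).tsum_prod

/-- **off-diagonal decomposition.** -/
theorem tsum_mul_tsum_offdiag {G H : ℤ → K} (hG : Summable G) (hH : Summable H) :
    (∑' n, G n) * (∑' n, H n) = ∑' n, G n * H n +
      ∑' d : ℕ, ∑' n : ℤ, (G n * H (n + ((d : ℤ) + 1)) + G (n + ((d : ℤ) + 1)) * H n) := by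
  rw [tsum_mul_tsum_shear hG hH]
  have hc : Summable (fun d : ℤ => ∑' n : ℤ, G n * H (n + d)) := (summable_shear hG hH).prod
  have hinj1 : Function.Injective (fun d : ℕ => (d : ℤ) + 1) := fun a b h => by
    have : (a : ℤ) + 1 = (b : ℤ) + 1 := h
    omega
  have hinj2 : Function.Injective (fun d : ℕ => -((d : ℤ) + 1)) := fun a b h => by
    have : -((a : ℤ) + 1) = -((b : ℤ) + 1) := h
    omega
  have h1 : Summable (fun d : ℕ => ∑' n : ℤ, G n * H (n + ((d : ℤ) + 1))) :=
    hc.comp_injective hinj1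
  have h2 : Summable (fun d : ℕ => ∑' n : ℤ, G n * H (n + -((d : ℤ) + 1))) :=
    hc.comp_injective hinj2
  have hsplit := tsum_of_add_one_of_neg_add_one (f := fun d : ℤ => ∑' n : ℤ, G n * H (n + d)) h1 h2
  rw [hsplit]
  have h0 : ∑' n : ℤ, G n * H (n + 0) = ∑' n : ℤ, G n * H n := by
    refine tsum_congr fun n => ?_
    rw [add_zero]
  have h3 : ∀ d : ℕ, ∑' n : ℤ, G n * H (n + -((d : ℤ) + 1)) =
      ∑' n : ℤ, G (n + ((d : ℤ) + 1)) * H n := by
    intro d
    rw [← (Equiv.addRight ((d : ℤ) + 1)).tsum_eq (fun n : ℤ => G n * H (n + -((d : ℤ) + 1)))]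
    refine tsum_congr fun n => ?_
    show G (n + ((d : ℤ) + 1)) * H (n + ((d : ℤ) + 1) + -((d : ℤ) + 1)) = _
    rw [add_neg_cancel_right]
  have h4 : ∀ d : ℕ, ∑' n : ℤ, (G n * H (n + ((d : ℤ) + 1)) + G (n + ((d : ℤ) + 1)) * H n) =
      ∑' n : ℤ, G n * H (n + ((d : ℤ) + 1)) + ∑' n : ℤ, G n * H (n + -((d : ℤ) + 1)) := by
    intro d
    rw [h3 d]
    refine (summable_shift_mul hG hH _).tsum_add ?_
    have := summable_shift_mul hH hG ((d : ℤ) + 1)
    refine this.congr fun n => ?_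
    rw [mul_comm]
  simp_rw [h4]
  rw [h1.tsum_add h2, h0]
  ring

theorem summable_offdiag_inner {G H : ℤ → K} (hG : Summable G) (hH : Summable H) (d : ℕ) :
    Summable (fun n : ℤ => G n * H (n + ((d : ℤ) + 1)) + G (n + ((d : ℤ) + 1)) * H n) := by
  refine (summable_shift_mul hG hH _).add ?_
  have := summable_shift_mul hH hG ((d : ℤ) + 1)
  refine this.congr fun n => ?_
  rw [mul_comm]

theorem summable_offdiag {G H : ℤ → K} (hG : Summable G) (hH : Summable H) :
    Summable (fun d : ℕ =>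
      ∑' n : ℤ, (G n * H (n + ((d : ℤ) + 1)) + G (n + ((d : ℤ) + 1)) * H n)) := by
  have hinj1 : Function.Injective (fun d : ℕ => (d : ℤ) + 1) := fun a b h => by
    have : (a : ℤ) + 1 = (b : ℤ) + 1 := h
    omega
  have h1 : Summable (fun d : ℕ => ∑' n : ℤ, G n * H (n + ((d : ℤ) + 1))) :=
    ((summable_shear hG hH).prod).comp_injective hinj1
  have h2 : Summable (fun d : ℕ => ∑' n : ℤ, H n * G (n + ((d : ℤ) + 1))) :=
    ((summable_shear hH hG).prod).comp_injective hinj1
  refine (h1.add h2).congr fun d => ?_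
  rw [(summable_shift_mul hG hH _).tsum_add]
  · congr 1
    refine tsum_congr fun n => ?_
    rw [mul_comm]
  · have := summable_shift_mul hH hG ((d : ℤ) + 1)
    refine this.congr fun n => ?_
    rw [mul_comm]

/-- shift invariance of sums over `ℤ`. -/
theorem hasSum_shift {f : ℤ → K} {a : K} (h : HasSum f a) (d : ℤ) :
    HasSum (fun n : ℤ => f (n + d)) a := by
  have h' := (Equiv.addRight d).hasSum_iff.2 h
  have hfun : f ∘ ⇑(Equiv.addRight d) = fun n : ℤ => f (n + d) := by
    funext n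
    simp
  rwa [hfun] at h'

theorem summable_shift {f : ℤ → K} (h : Summable f) (d : ℤ) :
    Summable (fun n : ℤ => f (n + d)) :=
  (hasSum_shift h.hasSum d).summable

theorem tsum_shift {f : ℤ → K} (h : Summable f) (d : ℤ) :
    ∑' n : ℤ, f (n + d) = ∑' n : ℤ, f n :=
  (hasSum_shift h.hasSum d).tsum_eq

/-! ### the points `qⁿ u` and summability of term families -/

/-- `w_n = qⁿ u`. -/
def wq (q u : K) (n : ℤ) : K := q ^ n * u

theorem wq_add {q : K} (hq0 : q ≠ 0) (u : K) (n d : ℤ) : wq q u (n + d) = q ^ d * wq q u n := by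
  unfold wq
  rw [zpow_add₀ hq0]
  ring

theorem wq_add_nat {q : K} (hq0 : q ≠ 0) (u : K) (n : ℤ) (d : ℕ) :
    wq q u (n + ((d : ℤ) + 1)) = q ^ (d + 1) * wq q u n := by
  rw [wq_add hq0]
  congr 1
  rw [show ((d : ℤ) + 1) = ((d + 1 : ℕ) : ℤ) by push_cast; ring, zpow_natCast]

theorem wq_ne_one {q u : K} (hu : IsAdm q u) (n : ℤ) : wq q u n ≠ 1 := hu.2 n

theorem wq_natCast (q u : K) (n : ℕ) : wq q u (n : ℤ) = q ^ n * u := by
  unfold wq
  rw [zpow_natCast]

theorem wq_neg_natCast (q u : K) (n : ℕ) :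
    wq q u (-(n : ℤ)) = (q ^ n * u⁻¹)⁻¹ := by
  unfold wq
  rw [zpow_neg, zpow_natCast, mul_inv, inv_inv]

theorem norm_pow_lt_one {q : K} (hq1 : ‖q‖ < 1) (d : ℕ) : ‖q ^ (d + 1)‖ < 1 := by
  rw [norm_pow]
  exact pow_lt_one₀ (norm_nonneg _) hq1 (Nat.succ_ne_zero d)

theorem pow_succ_ne_one {q : K} (hq1 : ‖q‖ < 1) (d : ℕ) : q ^ (d + 1) ≠ 1 := by
  intro h
  have := norm_pow_lt_one hq1 d
  rw [h, norm_one] at this
  exact lt_irrefl _ this

theorem tendsto_pow_mul {q : K} (hq1 : ‖q‖ < 1) (v : K) :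
    Tendsto (fun n : ℕ => q ^ n * v) atTop (𝓝 0) := by
  have := (tendsto_pow_atTop_nhds_zero_of_norm_lt_one hq1).mul_const v
  simpa using this

/-- `e (qⁿ v) → 0` for `e` continuous at `0` with `e 0 = 0`. -/
theorem tendsto_comp_pow_mul {q : K} (hq1 : ‖q‖ < 1) (v : K) {e : K → K} (he : ContinuousAt e 0)
    (he0 : e 0 = 0) : Tendsto (fun n : ℕ => e (q ^ n * v)) atTop (𝓝 0) := by
  have h := he.tendsto.comp (tendsto_pow_mul hq1 v)
  rw [he0] at h
  exact h

theorem summable_nat_of_tendsto {a : ℕ → K} (h : Tendsto a atTop (𝓝 0)) : Summable a := by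
  apply NonarchimedeanAddGroup.summable_of_tendsto_cofinite_zero
  rwa [Nat.cofinite_eq_atTop]

/-- summability over `ℤ` of `n ↦ E n`, given the behaviour at `+∞` through `e₊` and at `-∞`
through `e₋`. -/
theorem summable_int_of_ends {q u : K} (hq1 : ‖q‖ < 1) {E : ℤ → K} {ep em : K → K}
    (hep : ContinuousAt ep 0) (hep0 : ep 0 = 0) (hem : ContinuousAt em 0) (hem0 : em 0 = 0)
    (hp : ∀ n : ℕ, E (n : ℤ) = ep (q ^ n * u))
    (hm : ∀ n : ℕ, 1 ≤ n → E (-(n : ℤ)) = em (q ^ n * u⁻¹)) : Summable E := by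
  rw [summable_int_iff_summable_nat_and_neg]
  constructor
  · apply summable_nat_of_tendsto
    simp_rw [hp]
    exact tendsto_comp_pow_mul hq1 u hep hep0
  · apply summable_nat_of_tendsto
    have h := tendsto_comp_pow_mul hq1 u⁻¹ hem hem0
    refine h.congr' ?_
    filter_upwards [eventually_ge_atTop 1] with n hn
    exact (hm n hn).symm

theorem continuousAt_xTerm : ContinuousAt (xTerm : K → K) 0 := by
  unfold xTerm
  refine ContinuousAt.div continuousAt_id ?_ (by simp)
  exact (continuousAt_const.sub continuousAt_id).pow 2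

theorem continuousAt_yTerm : ContinuousAt (yTerm : K → K) 0 := by
  unfold yTerm
  refine ContinuousAt.div (continuousAt_id.pow 2) ?_ (by simp)
  exact (continuousAt_const.sub continuousAt_id).pow 3

theorem continuousAt_fT : ContinuousAt (fT : K → K) 0 := by
  unfold fT
  refine ContinuousAt.div continuousAt_id ?_ (by simp)
  exact continuousAt_const.sub continuousAt_id

theorem xTerm_zero : xTerm (0 : K) = 0 := by simp [xTerm]

theorem yTerm_zero : yTerm (0 : K) = 0 := by simp [yTerm]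

theorem fT_zero : fT (0 : K) = 0 := by simp [fT]

section Terms

variable {q u : K} (hq0 : q ≠ 0) (hq1 : ‖q‖ < 1) (hu : IsAdm q u)

include hq0 hq1 hu

theorem pow_mul_inv_ne_zero (n : ℕ) : q ^ n * u⁻¹ ≠ 0 :=
  mul_ne_zero (pow_ne_zero n hq0) (inv_ne_zero hu.1)

theorem summable_xTerm : Summable (fun n : ℤ => xTerm (wq q u n)) := by
  refine summable_int_of_ends (q := q) (u := u) hq1 (ep := xTerm) (em := xTerm)
    continuousAt_xTerm xTerm_zero continuousAt_xTerm xTerm_zero (fun n => ?_) (fun n _ => ?_)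
  · rw [wq_natCast]
  · rw [wq_neg_natCast, xTerm_inv (pow_mul_inv_ne_zero hq0 hq1 hu n)]

theorem summable_yTerm : Summable (fun n : ℤ => yTerm (wq q u n)) := by
  refine summable_int_of_ends (q := q) (u := u) hq1 (ep := yTerm)
    (em := fun w => -yTerm w - xTerm w) continuousAt_yTerm yTerm_zero
    ((continuousAt_yTerm.neg).sub continuousAt_xTerm) (by simp [yTerm_zero, xTerm_zero])
    (fun n => ?_) (fun n _ => ?_)
  · rw [wq_natCast]
  · rw [wq_neg_natCast, yTerm_inv (pow_mul_inv_ne_zero hq0 hq1 hu n)]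

/-- the indicator of the negative integers. -/
def indNeg (n : ℤ) : K := if n < 0 then 1 else 0

/-- the regularised `f`: `f(qⁿu)` for `n ≥ 0`, `f(qⁿu) + 1` for `n < 0`. -/
def hT (q u : K) (n : ℤ) : K := fT (wq q u n) + indNeg n

theorem summable_hT : Summable (hT q u) := by
  refine summable_int_of_ends (q := q) (u := u) hq1 (ep := fT) (em := fun w => -fT w)
    continuousAt_fT fT_zero continuousAt_fT.neg (by simp [fT_zero]) (fun n => ?_) (fun n hn => ?_)
  · have : ¬ ((n : ℤ) < 0) := by omega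
    rw [hT, indNeg, if_neg this, add_zero, wq_natCast]
  · have hneg : (-(n : ℤ)) < 0 := by omega
    rw [hT, indNeg, if_pos hneg, wq_neg_natCast]
    have hz : q ^ n * u⁻¹ ≠ 0 := pow_mul_inv_ne_zero hq0 hq1 hu n
    have hz1 : q ^ n * u⁻¹ ≠ 1 := by
      have := hu.2 (-(n : ℤ))
      intro h
      apply this
      rw [zpow_neg, zpow_natCast]
      have h2 : (q ^ n)⁻¹ * u = (q ^ n * u⁻¹)⁻¹ := by rw [mul_inv, inv_inv]
      rw [h2, h, inv_one]
    generalize q ^ n * u⁻¹ = z at hz hz1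
    have h1 : (1 : K) - z ≠ 0 := sub_ne_zero.2 (Ne.symm hz1)
    have h2 : (1 : K) - z⁻¹ ≠ 0 := by
      intro h
      apply hz1
      have : z⁻¹ = 1 := (sub_eq_zero.1 h).symm
      rw [← inv_inv z, this, inv_one]
    unfold fT
    field_simp
    ring

end Terms

/-! ### telescoping -/

section Tele

variable {q u : K} (hq0 : q ≠ 0) (hq1 : ‖q‖ < 1) (hu : IsAdm q u)

include hq0 hq1 hu

theorem indNeg_sub_succ (n : ℤ) :
    (indNeg n : K) - indNeg (n + 1) = if n = -1 then 1 else 0 := by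
  unfold indNeg
  split_ifs <;> first | (exfalso; omega) | ring

theorem hasSum_tele_one :
    HasSum (fun n : ℤ => fT (wq q u n) - fT (wq q u (n + 1))) (-1) := by
  have hS := summable_hT hq0 hq1 hu
  have h1 : HasSum (hT q u) (∑' n, hT q u n) := hS.hasSum
  have h2 : HasSum (fun n : ℤ => hT q u (n + 1)) (∑' n, hT q u n) := hasSum_shift h1 1
  have h3 : HasSum (fun n : ℤ => (if n = -1 then (1 : K) else 0)) 1 := hasSum_ite_eq (-1) 1
  have h4 := (h1.sub h2).sub h3
  rw [sub_self, zero_sub] at h4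
  have hfun : (fun n : ℤ => fT (wq q u n) - fT (wq q u (n + 1))) =
      fun n : ℤ => hT q u n - hT q u (n + 1) - (if n = -1 then (1 : K) else 0) := by
    funext n
    rw [← indNeg_sub_succ hq0 hq1 hu n, hT, hT]
    ring
  rw [hfun]
  exact h4

/-- **telescoping**: `∑ₙ (f(qⁿu) - f(q^{n+d}u)) = -d`. -/
theorem hasSum_tele (d : ℤ) :
    HasSum (fun n : ℤ => fT (wq q u n) - fT (wq q u (n + d))) (-(d : K)) := by
  induction d using Int.induction_on with
  | zero =>
    have hfun : (fun n : ℤ => fT (wq q u n) - fT (wq q u (n + 0))) = fun _ => (0 : K) := by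
      funext n
      rw [add_zero, sub_self]
    rw [hfun]
    simp
  | succ d ih =>
    have hs : HasSum (fun n : ℤ => fT (wq q u (n + (d : ℤ))) - fT (wq q u (n + (d : ℤ) + 1)))
        (-1) :=
      hasSum_shift (f := fun n : ℤ => fT (wq q u n) - fT (wq q u (n + 1)))
        (hasSum_tele_one hq0 hq1 hu) (d : ℤ)
    have h := ih.add hs
    have hfun : (fun n : ℤ => fT (wq q u n) - fT (wq q u (n + ((d : ℤ) + 1)))) =
        fun n : ℤ => fT (wq q u n) - fT (wq q u (n + (d : ℤ))) +
          (fT (wq q u (n + (d : ℤ))) - fT (wq q u (n + (d : ℤ) + 1))) := by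
      funext n
      rw [add_assoc]
      ring
    have hv : (-((((d : ℤ) + 1 : ℤ)) : K)) = -((d : ℤ) : K) + -1 := by
      push_cast
      ring
    rw [hfun, hv]
    exact h
  | pred d ih =>
    have hs : HasSum (fun n : ℤ => fT (wq q u (n + (-(d : ℤ) - 1))) -
        fT (wq q u (n + (-(d : ℤ) - 1) + 1))) (-1) :=
      hasSum_shift (f := fun n : ℤ => fT (wq q u n) - fT (wq q u (n + 1)))
        (hasSum_tele_one hq0 hq1 hu) (-(d : ℤ) - 1)
    have h := ih.sub hs
    have hfun : (fun n : ℤ => fT (wq q u n) - fT (wq q u (n + (-(d : ℤ) - 1)))) =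
        fun n : ℤ => fT (wq q u n) - fT (wq q u (n + -(d : ℤ))) -
          (fT (wq q u (n + (-(d : ℤ) - 1))) - fT (wq q u (n + (-(d : ℤ) - 1) + 1))) := by
      funext n
      have : n + (-(d : ℤ) - 1) + 1 = n + -(d : ℤ) := by ring
      rw [this]
      ring
    have hv : (-(((-(d : ℤ) - 1 : ℤ)) : K)) = -((-(d : ℤ) : ℤ) : K) - -1 := by
      push_cast
      ring
    rw [hfun, hv]
    exact h

end Tele

/-! ### kernels -/

theorem summable_kernel {q : K} (hq1 : ‖q‖ < 1) {G : K → K} (hG : ContinuousAt G 0)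
    (hG0 : G 0 = 0) (c : ℕ → K) (hc : ∀ d, ‖c d‖ ≤ 1) :
    Summable (fun d : ℕ => c d * G (q ^ (d + 1))) := by
  apply summable_nat_of_tendsto
  have h1 : Tendsto (fun d : ℕ => G (q ^ (d + 1))) atTop (𝓝 0) := by
    have := tendsto_comp_pow_mul hq1 q hG hG0
    simpa [pow_succ] using this
  rw [tendsto_zero_iff_norm_tendsto_zero] at h1 ⊢
  refine squeeze_zero (fun d => norm_nonneg _) (fun d => ?_) h1
  rw [norm_mul]
  calc ‖c d‖ * ‖G (q ^ (d + 1))‖ ≤ 1 * ‖G (q ^ (d + 1))‖ := by
        gcongr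
        exact hc d
    _ = ‖G (q ^ (d + 1))‖ := one_mul _

theorem summable_kernel_one {q : K} (hq1 : ‖q‖ < 1) {G : K → K} (hG : ContinuousAt G 0)
    (hG0 : G 0 = 0) : Summable (fun d : ℕ => G (q ^ (d + 1))) := by
  have := summable_kernel hq1 hG hG0 (fun _ => 1) (fun _ => by simp)
  simpa using this

theorem norm_natCast_succ_le (d : ℕ) : ‖((d : K) + 1)‖ ≤ 1 := by
  have := IsUltrametricDist.norm_natCast_le_one K (d + 1)
  simpa using this

theorem continuousAt_F1 : ContinuousAt (F1 : K → K) 0 := by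
  unfold F1
  exact ContinuousAt.div (by fun_prop) (by fun_prop) (by simp)

theorem continuousAt_F2 : ContinuousAt (F2 : K → K) 0 := by
  unfold F2
  exact ContinuousAt.div (by fun_prop) (by fun_prop) (by simp)

theorem continuousAt_F3 : ContinuousAt (F3 : K → K) 0 := by
  unfold F3
  exact ContinuousAt.div (by fun_prop) (by fun_prop) (by simp)

theorem continuousAt_F4 : ContinuousAt (F4 : K → K) 0 := by
  unfold F4
  exact ContinuousAt.div (by fun_prop) (by fun_prop) (by simp)

theorem continuousAt_GA : ContinuousAt (GA : K → K) 0 := by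
  unfold GA
  exact ContinuousAt.div (by fun_prop) (by fun_prop) (by simp)

theorem continuousAt_GC : ContinuousAt (GC : K → K) 0 := by
  unfold GC
  exact ContinuousAt.div (by fun_prop) (by fun_prop) (by simp)

theorem F1_zero : F1 (0 : K) = 0 := by simp [F1]

theorem F2_zero : F2 (0 : K) = 0 := by simp [F2]

theorem F3_zero : F3 (0 : K) = 0 := by simp [F3]

theorem F4_zero : F4 (0 : K) = 0 := by simp [F4]

theorem GA_zero : GA (0 : K) = 0 := by simp [GA]

theorem GC_zero : GC (0 : K) = 0 := by simp [GC]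

end Fermat.Agent.GZ.Tate.WeqD
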